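import Fermat.Agent.S19.R.C1P
import Fermat.Agent.GAL.KLC.IsIntOrd
import Fermat.Agent.GAL.FF.ZeroDeg

/-!
# S19 / R / C2 : (C2) functions of Gauss norm one are units away from the reduction of their divisor
Black box: `ev_le_one`.  `P.ord u = 0`: else `hsep P` gives `vK 0 = 1`.
HALF LEMMA (prove it for a general `u` with `v u = 1`, `P.ord u = 0` and `hsep` only for the POLES of `u`; apply it to `u` and `u⁻¹`):
`vK (val P u) ≤ 1`.  `Z := {P' | P'.ord u < 0 ∧ 0 ≤ P'.ord t}` finite (`FF.finite_support_ord`).  For `P' ∈ Z` put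
`l_{P'} := t - algebraMap (val P' t)` if `vK (val P' t) ≤ 1`, and `l_{P'} := 1 - algebraMap (val P' t)⁻¹ * t` otherwise.  In both cases
`l = aeval t (polynomial of degree 1)` whose coefficients have norm `≤ 1`, one of them `= 1`: `v l = 1` (Gauss); `0 < P'.ord l` or `l`... (`l ≠ 0` by
transcendence `hC.gauss.inj`; `val P' l = 0`); `vK (val P l) = 1` (first case: `hsep`; second case: `1 - (small)`).
`b := ∏ P' ∈ Z, l_{P'} ^ (-(P'.ord u)).toNat`: `v b = 1`, `vK (val P b) = 1`, `IsInt K t (u * b)` (`KLC.isInt_iff_forall_ord`).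
`ev_le_one` ⇒ `vK (val P (u b)) ≤ 1`, `val P (u b) = val P u * val P b` (`S27.val_mul`).
-/

set_option autoImplicit false

open AlgebraicCurve Polynomial

noncomputable section

namespace Fermat.Agent.S19.R

open Fermat.Agent.GAL.KL Fermat.Agent.GAL.KLC Fermat.Agent.GAL.KLB Fermat.Agent.GAL
open Fermat.Agent.S24.FF Fermat.Agent.S27

variable {K F k Γ₀ : Type*} [Field K] [Field F] [Algebra K F] [Field k]
  [LinearOrderedCommGroupWithZero Γ₀] {v : Valuation F Γ₀} {ρ : v.integer →+* LaurentSeries k}

/-- the Gauss norm of a polynomial of degree one. -/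
theorem c2_v_lin {t : F} (hG : Gauss K v t) {a b : K} (ha : vK v a ≤ 1) (hb : vK v b ≤ 1)
    (h : vK v a = 1 ∨ vK v b = 1) : v (algebraMap K F a + algebraMap K F b * t) = 1 := by
  have e : algebraMap K F a + algebraMap K F b * t = aeval t (C a + C b * X : K[X]) := by simp
  have c0 : (C a + C b * X : K[X]).coeff 0 = a := by simp
  have c1 : (C a + C b * X : K[X]).coeff 1 = b := by simp
  rw [e]
  apply le_antisymm
  · rw [hG]
    intro i
    rcases i with _ | _ | i
    · rw [c0]; exact ha
    · rw [c1]; exact hb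
    · have : (C a + C b * X : K[X]).coeff (i + 1 + 1) = 0 := by
        simp
      rw [this, map_zero, map_zero]
      exact zero_le_one
  · have h1 := (hG (C a + C b * X) _).mp le_rfl
    rcases h with h | h
    · have h2 := h1 0
      rw [c0] at h2
      rw [← h]
      exact h2
    · have h2 := h1 1
      rw [c1] at h2
      rw [← h]
      exact h2

theorem c2_isInt_lin {t : F} (a b : K) : IsInt K t (algebraMap K F a + algebraMap K F b * t) := by
  have e : algebraMap K F a + algebraMap K F b * t = aeval t (C a + C b * X : K[X]) := by simp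
  rw [e]
  exact IsInt.aeval _

variable [IsAlgClosed K] [CharZero K] [IsFF1 K F]

omit [CharZero K] in
theorem c2_val_lin {t : F} (P : Place K F) (hP : 0 ≤ P.ord t) (a b : K) :
    val P (algebraMap K F a + algebraMap K F b * t) = a + b * val P t := by
  rw [val_add P (ord_algebraMap_nonneg P a) (ord_mul_nonneg P (ord_algebraMap_nonneg P b) hP),
    val_mul P (ord_algebraMap_nonneg P b) hP, val_algebraMap, val_algebraMap]

omit [CharZero K] in
/-- the linear form vanishing at `P'`. -/
theorem c2_exists_lin {t : F} (hG : Gauss K v t) (P' : Place K F) :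
    ∃ l : F, IsInt K t l ∧ v l = 1 ∧ (0 ≤ P'.ord t → 0 < P'.ord l) ∧
      ∀ P : Place K F, 0 ≤ P.ord t → vK v (val P t) ≤ 1 →
        (vK v (val P' t) ≤ 1 → vK v (val P t - val P' t) = 1) → vK v (val P l) = 1 := by
  set c := val P' t with hc
  by_cases hc1 : vK v c ≤ 1
  · refine ⟨algebraMap K F (-c) + algebraMap K F 1 * t, c2_isInt_lin _ _, ?_, ?_, ?_⟩
    · exact c2_v_lin hG (by rwa [Valuation.map_neg]) (by rw [map_one]) (Or.inr (map_one _))
    · intro hP'
      have hv1 : v (algebraMap K F (-c) + algebraMap K F 1 * t) = 1 :=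
        c2_v_lin hG (by rwa [Valuation.map_neg]) (by rw [map_one]) (Or.inr (map_one _))
      have h0 : algebraMap K F (-c) + algebraMap K F 1 * t ≠ 0 := by
        intro h
        rw [h, map_zero] at hv1
        exact zero_ne_one hv1
      have h1 : val P' (algebraMap K F (-c) + algebraMap K F 1 * t) = 0 := by
        rw [c2_val_lin P' hP', ← hc]; ring
      exact ((val_eq_zero_iff P' (ord_nonneg_of_isInt P' hP' (c2_isInt_lin _ _))).mp h1).resolve_left
        h0
    · intro P hP _ hsep
      rw [c2_val_lin P hP]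
      have := hsep hc1
      rwa [show -c + 1 * val P t = val P t - c by ring]
  · have hc1' : 1 < vK v c := not_le.mp hc1
    have hc0 : c ≠ 0 := by
      rintro h
      rw [h, map_zero] at hc1'
      exact absurd hc1' (not_lt.mpr zero_le_one)
    have hci : vK v (-c⁻¹) < 1 := by
      rw [Valuation.map_neg, map_inv₀]
      exact inv_lt_one_of_one_lt₀ hc1'
    refine ⟨algebraMap K F 1 + algebraMap K F (-c⁻¹) * t, c2_isInt_lin _ _, ?_, ?_, ?_⟩
    · exact c2_v_lin hG (by rw [map_one]) hci.le (Or.inl (map_one _))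
    · intro hP'
      have hv1 : v (algebraMap K F 1 + algebraMap K F (-c⁻¹) * t) = 1 :=
        c2_v_lin hG (by rw [map_one]) hci.le (Or.inl (map_one _))
      have h0 : algebraMap K F 1 + algebraMap K F (-c⁻¹) * t ≠ 0 := by
        intro h
        rw [h, map_zero] at hv1
        exact zero_ne_one hv1
      have h1 : val P' (algebraMap K F 1 + algebraMap K F (-c⁻¹) * t) = 0 := by
        rw [c2_val_lin P' hP', ← hc]
        field_simp
        ring
      exact ((val_eq_zero_iff P' (ord_nonneg_of_isInt P' hP' (c2_isInt_lin _ _))).mp h1).resolve_left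
        h0
    · intro P hP hPt _
      rw [c2_val_lin P hP]
      apply Valuation.map_one_add_of_lt
      rw [map_mul]
      exact mul_lt_one_of_lt_of_le hci hPt

/-- the half lemma: only the poles matter for the upper bound. -/
theorem c2_half {t : F} (hC : Chart K v t) {u : F} (hu : v u = 1) (P : Place K F)
    (hP : 0 ≤ P.ord t) (hPt : vK v (val P t) ≤ 1) (hPu : P.ord u = 0)
    (hsep : ∀ P' : Place K F, P'.ord u < 0 → 0 ≤ P'.ord t → vK v (val P' t) ≤ 1 →
      vK v (val P t - val P' t) = 1) :
    vK v (val P u) ≤ 1 := by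
  classical
  have hG := hC.gauss
  have htr : Transcendental K t := transcendental_iff.mpr fun p hp => hG.inj p hp
  have hu0 : u ≠ 0 := by
    rintro rfl
    rw [map_zero] at hu
    exact zero_ne_one hu
  choose l hlint hlv hlord hlval using c2_exists_lin (K := K) hG
  set Z : Finset (Place K F) :=
    (FF.finite_support_ord u).toFinset.filter fun P' => P'.ord u < 0 ∧ 0 ≤ P'.ord t with hZ
  have hmemZ : ∀ P' : Place K F, P' ∈ Z ↔ P'.ord u < 0 ∧ 0 ≤ P'.ord t := by
    intro P'
    rw [hZ, Finset.mem_filter, Set.Finite.mem_toFinset]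
    constructor
    · exact fun h => h.2
    · exact fun h => ⟨ne_of_lt h.1, h⟩
  set n : Place K F → ℕ := fun P' => (-(P'.ord u)).toNat with hn
  set b : F := ∏ P' ∈ Z, l P' ^ n P' with hb
  have hbint : IsInt K t b := by
    rw [← mem_BBa, hb]
    exact Subalgebra.prod_mem _ fun P' _ => Subalgebra.pow_mem _ (hlint P') _
  have hbv : v b = 1 := by
    rw [hb, map_prod]
    exact Finset.prod_eq_one fun P' _ => by rw [map_pow, hlv, one_pow]
  have hb0 : b ≠ 0 := by
    intro h
    rw [h, map_zero] at hbv
    exact zero_ne_one hbv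
  have hbval : vK v (val P b) = 1 := by
    rw [hb, val_prod P _ _ fun P' _ => ord_pow_nonneg P (ord_nonneg_of_isInt P hP (hlint P')) _,
      map_prod]
    refine Finset.prod_eq_one fun P' hP' => ?_
    rw [val_pow P (ord_nonneg_of_isInt P hP (hlint P')), map_pow,
      hlval P' P hP hPt (hsep P' ((hmemZ P').mp hP').1 ((hmemZ P').mp hP').2), one_pow]
  have hubint : IsInt K t (u * b) := by
    rw [isInt_iff_forall_ord htr]
    intro P'' hP''
    rw [P''.ord_mul hu0 hb0]
    by_cases hneg : P''.ord u < 0
    · have hmem : P'' ∈ Z := (hmemZ P'').mpr ⟨hneg, hP''⟩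
      have hl0 : l P'' ≠ 0 := by
        intro h
        have := hlv P''
        rw [h, map_zero] at this
        exact zero_ne_one this
      have hrest : IsInt K t (∏ P' ∈ Z.erase P'', l P' ^ n P') := by
        rw [← mem_BBa]
        exact Subalgebra.prod_mem _ fun P' _ => Subalgebra.pow_mem _ (hlint P') _
      have hrest0 : (∏ P' ∈ Z.erase P'', l P' ^ n P') ≠ 0 := by
        intro h
        apply hb0
        rw [hb, ← Finset.mul_prod_erase Z _ hmem, h, mul_zero]
      have h1 : P''.ord b = n P'' * P''.ord (l P'') + P''.ord (∏ P' ∈ Z.erase P'', l P' ^ n P') := by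
        rw [hb, ← Finset.mul_prod_erase Z _ hmem, P''.ord_mul (pow_ne_zero _ hl0) hrest0, ord_pow]
      have h2 : 0 ≤ P''.ord (∏ P' ∈ Z.erase P'', l P' ^ n P') := ord_nonneg_of_isInt P'' hP'' hrest
      have h3 : 0 < P''.ord (l P'') := hlord P'' hP''
      have h4 : ((n P'' : ℕ) : ℤ) = -(P''.ord u) := by
        rw [hn]
        exact Int.toNat_of_nonneg (by omega)
      have h5 : ((n P'' : ℕ) : ℤ) ≤ n P'' * P''.ord (l P'') := by
        nlinarith [Int.natCast_nonneg (n P'')]
      omega
    · have := ord_nonneg_of_isInt P'' hP'' hbint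
      omega
  have h1 := ev_le_one hC P hP hPt hubint (by rw [map_mul, hu, hbv, one_mul])
  rw [val_mul P hPu.ge (ord_nonneg_of_isInt P hP hbint), map_mul, hbval, mul_one] at h1
  exact h1

/-- **(C2)** a function of Gauss norm one is a unit at every point of the chart whose reduction is
different from the reductions of its zeros and poles. -/
theorem ev_eq_one {t : F} (hC : Chart K v t) {u : F} (hu : v u = 1) (P : Place K F)
    (hP : 0 ≤ P.ord t) (hPt : vK v (val P t) ≤ 1)
    (hsep : ∀ P' : Place K F, P'.ord u ≠ 0 → 0 ≤ P'.ord t → vK v (val P' t) ≤ 1 →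
      vK v (val P t - val P' t) = 1) :
    P.ord u = 0 ∧ vK v (val P u) = 1 := by
  have hPu : P.ord u = 0 := by
    by_contra h
    have h1 := hsep P h hP hPt
    rw [sub_self, map_zero] at h1
    exact zero_ne_one h1
  have hu0 : u ≠ 0 := by
    rintro rfl
    rw [map_zero] at hu
    exact zero_ne_one hu
  refine ⟨hPu, le_antisymm ?_ ?_⟩
  · exact c2_half hC hu P hP hPt hPu fun P' h => hsep P' h.ne
  · have h1 : vK v (val P u⁻¹) ≤ 1 :=
      c2_half hC (by rw [map_inv₀, hu, inv_one]) P hP hPt (by rw [P.ord_inv, hPu, neg_zero])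
        fun P' h => hsep P' (by rw [P'.ord_inv] at h; omega)
    rw [val_inv P hPu, map_inv₀] at h1
    have h2 : val P u ≠ 0 := (val_ne_zero_iff P hu0 hPu.ge).mpr hPu
    have h3 : vK v (val P u) ≠ 0 := (Valuation.ne_zero_iff _).mpr h2
    exact (inv_le_one₀ (zero_lt_iff.mpr h3)).mp h1

end Fermat.Agent.S19.R
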