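import Fermat.Agent.S19.R.Pt

/-!
# S19 / R / GoodBad : the non-good locus of s = 1/u lies in the chart τ = 1/(1 - c u), near {0, 1, 1/(1-c)}
Ultrametric case analysis; `τ := (1 - c u)⁻¹`, `1 - c u ≠ 0` by `hu`.  API: `S27/A/Api.lean` (`val_inv`, `val_sub`, `val_mul`, `val_algebraMap`, `val_ne_zero_iff`, `val_eq_zero_of_ord_pos`, ...).
A. `y.ord u < 0`: `1 - c u` has a pole (`c ≠ 0`; `S24.FF` lemma on `ord` of a sum with different orders, e.g. `ord_add_eq_of_lt`), so `0 < y.ord τ`, `val y τ = 0`: near `0`.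
B. `0 ≤ y.ord u`, `μ := val y u`, `val y (1 - c u) = 1 - c μ`.
 B1. `1 - c μ = 0`: `μ = c⁻¹ ≠ 0`, `y.ord u = 0`, `val y u⁻¹ = c`: `Good`, contradiction.
 B2. `1 - c μ ≠ 0`: `y.ord (1 - c u) = 0`, `y.ord τ = 0`, `val y τ = (1 - c μ)⁻¹`.
  `|μ| > 1`: `|1 - c μ| = |μ| > 1`: near `0`.   `|μ| < 1`: `|1 - c μ| = 1`, `val y τ - 1 = c μ / (1 - c μ)`: near `1`.
  `|μ| = 1`: `val y u⁻¹ = μ⁻¹` of norm `1`; not `Good` ⇒ `|μ⁻¹ - 1| ≠ 1`, and it is `≤ 1`, so `< 1`, so `|1 - μ| < 1`; `1 - c μ = (1 - c) + c (1 - μ)` has norm `1`;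
  `val y τ - (1 - c)⁻¹ = c (μ - 1) / ((1 - c μ)(1 - c))` has norm `< 1`: near `(1 - c)⁻¹`.
-/

set_option autoImplicit false

open AlgebraicCurve Polynomial

noncomputable section

namespace Fermat.Agent.S19.R

open Fermat.Agent.GAL.KL Fermat.Agent.GAL.KLC Fermat.Agent.GAL.KLB Fermat.Agent.GAL
open Fermat.Agent.S24.FF Fermat.Agent.S27

variable {K F k Γ₀ : Type*} [Field K] [Field F] [Algebra K F] [Field k]
  [LinearOrderedCommGroupWithZero Γ₀] {v : Valuation F Γ₀} {ρ : v.integer →+* LaurentSeries k}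

/-- the purely ultrametric part of the case analysis. -/
theorem goodbad_val (w : Valuation K Γ₀) (c μ : K) (hc : w c = 1) (hc1 : w (c - 1) = 1)
    (h : 1 - c * μ ≠ 0) (hng : ¬ (w μ⁻¹ = 1 ∧ w (μ⁻¹ - 1) = 1)) :
    ∃ a ∈ ({0, 1, (1 - c)⁻¹} : Set K), w ((1 - c * μ)⁻¹ - a) < 1 := by
  have hcμ : w (c * μ) = w μ := by rw [map_mul, hc, one_mul]
  have h1c : w (1 - c) = 1 := by rw [← hc1, Valuation.map_sub_swap]
  have h1c0 : (1 - c : K) ≠ 0 := by
    intro h0
    rw [h0, map_zero] at h1c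
    exact zero_ne_one h1c
  rcases lt_trichotomy (w μ) 1 with hμ | hμ | hμ
  · -- near `1`
    refine ⟨1, by simp, ?_⟩
    have h1 : w (1 - c * μ) = 1 := by
      have := Valuation.map_sub_eq_of_lt_left w (x := 1) (y := c * μ) (by rw [map_one, hcμ]; exact hμ)
      rw [this, map_one]
    have h2 : (1 - c * μ)⁻¹ - 1 = c * μ * (1 - c * μ)⁻¹ := by
      field_simp
      ring
    rw [h2, map_mul, map_inv₀, h1, inv_one, mul_one, hcμ]
    exact hμ
  · -- near `(1 - c)⁻¹`
    refine ⟨(1 - c)⁻¹, by simp, ?_⟩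
    have hμ0 : μ ≠ 0 := by
      rintro rfl
      rw [map_zero] at hμ
      exact zero_ne_one hμ
    have hi : w μ⁻¹ = 1 := by rw [map_inv₀, hμ, inv_one]
    have hle : w (μ⁻¹ - 1) ≤ 1 := by
      refine (Valuation.map_sub w _ _).trans ?_
      rw [hi, map_one, max_self]
    have hlt : w (μ⁻¹ - 1) < 1 := lt_of_le_of_ne hle fun he => hng ⟨hi, he⟩
    have h3 : w (1 - μ) < 1 := by
      have : 1 - μ = μ * (μ⁻¹ - 1) := by
        field_simp
      rw [this, map_mul, hμ, one_mul]
      exact hlt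
    have h4 : w (c * (1 - μ)) < 1 := by rw [map_mul, hc, one_mul]; exact h3
    have h1 : w (1 - c * μ) = 1 := by
      have he : 1 - c * μ = (1 - c) + c * (1 - μ) := by ring
      rw [he, Valuation.map_add_eq_of_lt_left w (by rw [h1c]; exact h4), h1c]
    have h2 : (1 - c * μ)⁻¹ - (1 - c)⁻¹ = -(c * (1 - μ)) * ((1 - c * μ)⁻¹ * (1 - c)⁻¹) := by
      field_simp
      ring
    rw [h2, map_mul, Valuation.map_neg, map_mul w (1 - c * μ)⁻¹, map_inv₀, map_inv₀, h1, h1c,
      inv_one, mul_one, mul_one]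
    exact h4
  · -- near `0`
    refine ⟨0, by simp, ?_⟩
    have h1 : w (1 - c * μ) = w μ := by
      have := Valuation.map_sub_eq_of_lt_right w (x := 1) (y := c * μ) (by rw [map_one, hcμ]; exact hμ)
      rw [this, hcμ]
    rw [sub_zero, map_inv₀, h1]
    exact inv_lt_one_of_one_lt₀ hμ

variable [IsAlgClosed K] [CharZero K] [IsFF1 K F]

theorem nearS_of_not_good (u : F) (c : K) (hc : vK v c = 1) (hc1 : vK v (c - 1) = 1)
    (hu : Transcendental K u) (y : Place K F) (hy : ¬ Good v u⁻¹ y) :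
    NearSet v (1 - algebraMap K F c * u)⁻¹ {0, 1, (1 - c)⁻¹} y := by
  have hc0 : c ≠ 0 := by
    rintro rfl
    rw [map_zero] at hc
    exact zero_ne_one hc
  have hcF : algebraMap K F c ≠ 0 := by simpa using hc0
  have hu0 : u ≠ 0 := by
    rintro rfl
    exact hu isAlgebraic_zero
  have hne : 1 - algebraMap K F c * u ≠ 0 := by
    intro h0
    apply hu
    have : u = algebraMap K F c⁻¹ := by
      rw [map_inv₀]
      field_simp
      linear_combination -h0
    rw [this]
    exact isAlgebraic_algebraMap _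
  rcases lt_or_ge (y.ord u) 0 with hneg | hpos
  · -- A: pole of `u`
    have h1 : y.ord (algebraMap K F c * u) < 0 := by
      rw [y.ord_mul hcF hu0, ord_algebraMap, zero_add]
      exact hneg
    have h2 : y.ord (1 - algebraMap K F c * u) < 0 := by
      have h3 := ord_sub_algebraMap_of_pole y h1 1
      rw [map_one] at h3
      rw [← ord_neg, neg_sub, h3]
      exact h1
    have h3 : 0 < y.ord (1 - algebraMap K F c * u)⁻¹ := by
      rw [y.ord_inv]
      omega
    refine ⟨h3.le, 0, by simp, ?_⟩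
    rw [val_eq_zero_of_ord_pos y h3, sub_zero, map_zero]
    exact zero_lt_one
  · -- B: `u` regular
    have hcu : 0 ≤ y.ord (algebraMap K F c * u) := ord_mul_nonneg y (ord_algebraMap_nonneg y c) hpos
    have h1' : 0 ≤ y.ord (1 : F) := by rw [y.ord_one]
    have hreg : 0 ≤ y.ord (1 - algebraMap K F c * u) := ord_sub_nonneg y h1' hcu
    have hval : val y (1 - algebraMap K F c * u) = 1 - c * val y u := by
      rw [val_sub y h1' hcu, val_one, val_mul y (ord_algebraMap_nonneg y c) hpos, val_algebraMap]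
    have hng : ¬ (vK v (val y u)⁻¹ = 1 ∧ vK v ((val y u)⁻¹ - 1) = 1) := by
      rcases hpos.eq_or_lt with h0 | h0
      · intro hh
        apply hy
        refine ⟨by rw [y.ord_inv, ← h0]; simp, ?_⟩
        rw [val_inv y h0.symm]
        exact hh
      · rw [val_eq_zero_of_ord_pos y h0, inv_zero, map_zero]
        intro hh
        exact zero_ne_one hh.1
    have hB : 1 - c * val y u ≠ 0 := by
      intro h0
      apply hng
      have : (val y u)⁻¹ = c := by
        have h5 : c * val y u = 1 := by linear_combination -h0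
        exact inv_eq_of_mul_eq_one_left h5
      rw [this]
      exact ⟨hc, hc1⟩
    have hord : y.ord (1 - algebraMap K F c * u) = 0 := by
      rw [← val_ne_zero_iff y hne hreg, hval]
      exact hB
    refine ⟨by rw [y.ord_inv, hord]; simp, ?_⟩
    rw [val_inv y hord, hval]
    exact goodbad_val (vK v) c (val y u) hc hc1 hB hng

end Fermat.Agent.S19.R
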