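import Fermat.Agent.S19.R.Defs2
import Fermat.Agent.GAL.FF.Places

/-!
# S19 / R / Pt : the places of a chart as points `BBa K t →ₐ[K] K` (no sorry; owner helper40)
-/

set_option autoImplicit false

open AlgebraicCurve Polynomial

noncomputable section

namespace Fermat.Agent.S19.R

open Fermat.Agent.GAL.KL Fermat.Agent.GAL.KLC Fermat.Agent.GAL.KLB Fermat.Agent.GAL
open Fermat.Agent.S24.FF Fermat.Agent.S27

variable {K F : Type*} [Field K] [Field F] [Algebra K F]

/-- elements of the chart ring are regular at the places of the chart. -/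
theorem ord_nonneg_of_isInt {t : F} (P : Place K F) (hP : 0 ≤ P.ord t) {z : F} (hz : IsInt K t z) :
    0 ≤ P.ord z := by
  obtain ⟨p, hp, hpz⟩ := hz
  have htP : t ∈ P.toValuationSubring := mem_toValuationSubring_of_ord_nonneg P hP
  have hmem : ∀ q : K[X], ((aeval t : K[X] →ₐ[K] F) : K[X] →+* F) q ∈
      P.toValuationSubring.toSubring := fun q =>
    FF.places_aeval_mem P.toValuationSubring P.algebraMap_mem' htP q
  let g : K[X] →+* P.toValuationSubring :=
    ((aeval t : K[X] →ₐ[K] F) : K[X] →+* F).codRestrict P.toValuationSubring.toSubring hmem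
  have hint : IsIntegral P.toValuationSubring z := by
    refine ⟨p.map g, hp.map g, ?_⟩
    rw [eval₂_map]
    exact hpz
  obtain ⟨y, hy⟩ := (IsIntegrallyClosed.isIntegral_iff (R := P.toValuationSubring) (K := F)).1 hint
  apply ord_nonneg_of_mem
  rw [← hy]
  exact y.2

theorem BBa_le {t : F} (P : Place K F) (hP : 0 ≤ P.ord t) (z : BBa K t) : 0 ≤ P.ord (z : F) :=
  ord_nonneg_of_isInt P hP z.2

variable [IsAlgClosed K] [IsFF1 K F]

/-- the point of the chart defined by a place at which `t` is regular. -/
def evB {t : F} (P : Place K F) (hP : 0 ≤ P.ord t) : BBa K t →ₐ[K] K where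
  toFun z := val P (z : F)
  map_one' := val_one P
  map_mul' z z' := val_mul P (BBa_le P hP z) (BBa_le P hP z')
  map_zero' := val_zero P
  map_add' z z' := val_add P (BBa_le P hP z) (BBa_le P hP z')
  commutes' a := val_algebraMap P a

@[simp] theorem evB_apply {t : F} (P : Place K F) (hP : 0 ≤ P.ord t) (z : BBa K t) :
    evB P hP z = val P (z : F) := rfl

theorem evB_tB {t : F} (P : Place K F) (hP : 0 ≤ P.ord t) : evB P hP (tB K t) = val P t := rfl

end Fermat.Agent.S19.R
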