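import Fermat.Agent.S19.R.Int1
import Fermat.Agent.S19.R.Pt
import Fermat.Agent.GAL.KLC.IsIntOrd
import Fermat.Agent.GAL.FF.ZeroDeg
import Fermat.Agent.GAL.KLB.Count

/-!
# S19 / R / LiftH : the chart 1/h(x) has the lifting property
Black box: `isInt_mul_pow_of_isInt_inv`.
`isInt_inv_of_mem_LL`: `H := aeval x h` is transcendental (`hdeg`; e.g. `Polynomial.transcendental_aeval_iff`/ `Transcendental.aeval`), so is `H⁻¹` (`S24.FF.transcendental_inv`);
`KLC.isInt_iff_forall_ord`: let `P` with `0 ≤ P.ord H⁻¹`, i.e. `P.ord H ≤ 0`.  If `0 ≤ P.ord x`: `z` and `H` are regular at `P` (`hz.1`, `ord_nonneg_of_isInt`), so `P.ord H = 0`: fine.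
If `P.ord x < 0`: `P.ord H = e * P.ord x` (leading term dominates: write `H = x^e * aeval x⁻¹ (reflect e h)`, the second factor has value `lc ≠ 0` at `P`), and
`hz.2` (`x⁻¹^(n e) z` integral over `K[x⁻¹]`, regular at `P`) gives `P.ord z ≥ n e P.ord x = n P.ord H`.
`lift_aeval_inv`: `ξ := ρ x ≠ 0` (`v x = 1`).  Lift `h` to `P : (AK K v)[X]` (`KLB.exists_lift_poly`), `hb := P.map (resK hρ)`, `natDegree hb = natDegree h` (leading coefficient is a unit:
`resK_eq_zero_iff`), `Hi : v.integer := eval₂ (toInt K v) x P`, `(Hi : F) = aeval x h` (`coe_eval₂_toInt`), `ρ Hi = aeval ξ hb` (`rho_aeval`), `v Hi = 1` (Gauss + `hlead`), so `aeval ξ hb ≠ 0`, `τ * Hi = 1`,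
`ρ τ = (aeval ξ hb)⁻¹`.  Given `z` with `IsInt k (ρ τ) (ρ z)`: `isInt_mul_pow_of_isInt_inv` gives `n₀`; take `n := max n₀ a₀` (`n * e ≥ a₀` as `e ≥ 1`); `ρ (z * Hi ^ n) ∈ Bbar hρ ξ (n e) = redW hρ (LL K x (n e))`:
`z₁ : v.integer`, `z₁ ∈ LL`, `ρ z₁ = ρ z * (aeval ξ hb) ^ n`.  `z' := z₁ * τ ^ n`: `ρ z' = ρ z`, `IsInt K τ z'` by the first theorem.
-/

set_option autoImplicit false

open AlgebraicCurve Polynomial

noncomputable section

namespace Fermat.Agent.S19.R

open Fermat.Agent.GAL.KL Fermat.Agent.GAL.KLC Fermat.Agent.GAL.KLB Fermat.Agent.GAL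
open Fermat.Agent.S24.FF Fermat.Agent.S27

variable {K F k Γ₀ : Type*} [Field K] [Field F] [Algebra K F] [Field k]
  [LinearOrderedCommGroupWithZero Γ₀] {v : Valuation F Γ₀} {ρ : v.integer →+* LaurentSeries k}

variable [IsAlgClosed K] [CharZero K] [IsFF1 K F]

omit [IsAlgClosed K] [CharZero K] [IsFF1 K F] in
theorem liftH_transcendental {x : F} (hx : Transcendental K x) (h : K[X])
    (hdeg : 0 < h.natDegree) : Transcendental K (aeval x h) := by
  rw [transcendental_iff] at hx ⊢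
  intro p hp
  rw [← aeval_comp] at hp
  have h1 := hx _ hp
  by_contra hp0
  have h2 : (p.comp h).natDegree = p.natDegree * h.natDegree := natDegree_comp
  rw [h1, natDegree_zero] at h2
  have h3 : p.natDegree = 0 := by
    rcases Nat.eq_zero_or_pos p.natDegree with h | h'
    · exact h
    · exact absurd h2 (Nat.ne_of_lt (Nat.mul_pos h' hdeg))
  rw [eq_C_of_natDegree_eq_zero h3, C_comp] at h1
  apply hp0
  rw [eq_C_of_natDegree_eq_zero h3, h1]

theorem isInt_inv_of_mem_LL {x : F} (hx : Transcendental K x) (h : K[X])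
    (hdeg : 0 < h.natDegree) {n : ℕ} {z : F} (hz : z ∈ LL K x (n * h.natDegree)) :
    IsInt K (aeval x h)⁻¹ (z * (aeval x h)⁻¹ ^ n) := by
  have htr := liftH_transcendental hx h hdeg
  have hx0 : x ≠ 0 := by
    rintro rfl
    exact hx (isAlgebraic_zero)
  have hH0 : aeval x h ≠ 0 := by
    intro h0
    rw [h0] at htr
    exact htr isAlgebraic_zero
  rw [isInt_iff_forall_ord (transcendental_inv htr)]
  intro P hP
  by_cases hPx : 0 ≤ P.ord x
  · exact ord_mul_nonneg P (ord_nonneg_of_isInt P hPx hz.1) (ord_pow_nonneg P hP n)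
  · have hPx' : 0 < P.ord x⁻¹ := by rw [Place.ord_inv]; omega
    have h1 : 0 ≤ P.ord (x⁻¹ ^ (n * h.natDegree) * z) := ord_nonneg_of_isInt P hPx'.le hz.2
    have hR := FF.ord_aeval_eq_zero P hPx' (p := reflect h.natDegree h) (by
      rw [coeff_reflect, revAt_le (Nat.zero_le _), Nat.sub_zero, coeff_natDegree]
      exact leadingCoeff_ne_zero.mpr (fun h0 => by rw [h0, natDegree_zero] at hdeg; omega))
    rw [aeval_inv_reflect hx0 _ h le_rfl] at hR
    have h2 : 0 ≤ P.ord (x⁻¹ ^ h.natDegree * aeval x h)⁻¹ := by rw [Place.ord_inv, hR.2, neg_zero]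
    have h3 : z * (aeval x h)⁻¹ ^ n
        = (x⁻¹ ^ (n * h.natDegree) * z) * ((x⁻¹ ^ h.natDegree * aeval x h)⁻¹) ^ n := by
      have h4 : x⁻¹ ^ (n * h.natDegree) * ((x⁻¹ ^ h.natDegree)⁻¹) ^ n = 1 := by
        rw [mul_comm n, pow_mul, ← mul_pow, mul_inv_cancel₀ (pow_ne_zero _ (inv_ne_zero hx0)), one_pow]
      rw [mul_inv, mul_pow]
      calc z * (aeval x h)⁻¹ ^ n
          = (x⁻¹ ^ (n * h.natDegree) * ((x⁻¹ ^ h.natDegree)⁻¹) ^ n) * (z * (aeval x h)⁻¹ ^ n) := by
            rw [h4, one_mul]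
        _ = _ := by ring
    rw [h3]
    exact ord_mul_nonneg P h1 (ord_pow_nonneg P h2 n)

theorem lift_aeval_inv (hρ : IsRed K v ρ) (x : v.integer) (hch : Chart K v (x : F))
    (hLx : LiftLL hρ x) (h : K[X]) (hdeg : 0 < h.natDegree) (hcoef : ∀ i, vK v (h.coeff i) ≤ 1)
    (hlead : vK v h.leadingCoeff = 1) (τ : v.integer) (hτ : (τ : F) = (aeval (x : F) h)⁻¹) :
    Lift K ρ τ := by
  have hxtr : Transcendental K (x : F) := by
    rw [transcendental_iff]
    exact fun p hp => hch.gauss.inj p hp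
  obtain ⟨P, hP⟩ := KLB.exists_lift_poly (v := v) h hcoef
  set hb : k[X] := P.map (resK hρ) with hhb
  set Hi : v.integer := eval₂ (toInt K v) x P with hHi
  have hHiF : (Hi : F) = aeval (x : F) h := by rw [hHi, coe_eval₂_toInt, hP]
  have hρHi : ρ Hi = aeval (ρ x) hb := rho_aeval hρ x P
  have hPcoeff : ∀ i, ((P.coeff i : AK K v) : K) = h.coeff i := by
    intro i
    rw [← hP, coeff_map]; rfl
  -- degrees
  have hPdeg : P.natDegree = h.natDegree := by
    rw [← hP, natDegree_map_eq_of_injective (Subring.subtype_injective _)]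
  have hbdeg : hb.natDegree = h.natDegree := by
    rw [← hPdeg, hhb]
    apply natDegree_map_of_leadingCoeff_ne_zero
    intro h0
    rw [resK_eq_zero_iff] at h0
    have h1 : ((P.leadingCoeff : AK K v) : K) = h.leadingCoeff := by
      rw [leadingCoeff, hPcoeff, hPdeg, coeff_natDegree]
    rw [h1] at h0
    exact absurd hlead (ne_of_lt h0)
  -- `v Hi = 1`
  have hvHi : v (Hi : F) = 1 := by
    apply le_antisymm Hi.2
    by_contra hlt
    rw [not_le, hHiF] at hlt
    have := (hch.gauss.lt_iff h 1 one_ne_zero).1 hlt h.natDegree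
    rw [coeff_natDegree] at this
    exact absurd hlead (ne_of_lt this)
  have hHi0 : ρ Hi ≠ 0 := by
    intro h0
    have := (hρ.ker Hi).1 h0
    rw [hvHi] at this
    exact lt_irrefl _ this
  have hξ0 : ρ x ≠ 0 := by
    intro h0
    have := (hρ.ker x).1 h0
    rw [hch.gauss.v_t] at this
    exact lt_irrefl _ this
  have hτHi : τ * Hi = 1 := by
    apply Subtype.ext
    show (τ : F) * (Hi : F) = 1
    rw [hτ, hHiF]
    apply inv_mul_cancel₀
    rw [← hHiF]
    intro h0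
    rw [h0, map_zero] at hvHi
    exact zero_ne_one hvHi
  have hρτ : ρ τ = (aeval (ρ x) hb)⁻¹ := by
    rw [← hρHi]
    apply eq_inv_of_mul_eq_one_left
    rw [← map_mul, hτHi, map_one]
  intro z hz
  rw [hρτ] at hz
  obtain ⟨n₀, hn₀⟩ := isInt_mul_pow_of_isInt_inv hξ0 hb (by rw [← hρHi]; exact hHi0) hz
  obtain ⟨a₀, ha₀⟩ := hLx
  set n := max n₀ a₀ with hn
  have hn1 := hn₀ n (le_max_left _ _)
  rw [hbdeg] at hn1
  have hna : a₀ ≤ n * h.natDegree :=
    (le_max_right n₀ a₀).trans (Nat.le_mul_of_pos_right _ hdeg)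
  have hmem : ρ (z * Hi ^ n) ∈ Bbar hρ (ρ x) (n * h.natDegree) := by
    rw [mem_Bbar, map_mul, map_pow, hρHi]
    exact ⟨hn1, z * Hi ^ n, by rw [map_mul, map_pow, hρHi]⟩
  rw [← ha₀ _ hna] at hmem
  obtain ⟨z₁, hz₁, hρz₁⟩ := hmem
  refine ⟨z₁ * τ ^ n, ?_, ?_⟩
  · have := isInt_inv_of_mem_LL hxtr h hdeg hz₁
    have h8 : ((z₁ * τ ^ n : v.integer) : F) = (z₁ : F) * ((aeval (x : F) h)⁻¹) ^ n := by
      rw [← hτ]; rfl
    rw [hτ, h8]
    exact this
  · rw [map_mul, hρz₁, map_mul, map_pow, map_pow, mul_assoc, ← mul_pow, ← map_mul, mul_comm Hi τ,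
      hτHi, map_one, one_pow, mul_one]

end Fermat.Agent.S19.R
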