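import Fermat.Agent.S19.R.Move1

/-!
# S19 / R / Move : the moving lemma for divisors
Black box: `move_one`.  Choose `f_y` for every `y` with `NearSet y` (`Classical.choose`; `f_y := 1` otherwise).
`f := ∏ y ∈ D.support, f_y ^ (-(D y))` (`zpow`).  `r.ord f = ∑ y ∈ D.support, -(D y) * r.ord (f_y)` (`Place.ord_mul`, `Place.ord_zpow`;
induction on the finset; there may be a lemma `LocPow_ord_prod` in `GAL/KLC/LocPow.lean`).  If `NearSet r`: `r.ord (f_y) = 0` for `y ≠ r`
(for `NearSet y` by `move_one`, else `f_y = 1`), `r.ord (f_r) = 1`; so `r.ord f = - D r` (also when `r ∉ D.support`).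
-/

set_option autoImplicit false

open AlgebraicCurve Polynomial

noncomputable section

namespace Fermat.Agent.S19.R

open Fermat.Agent.GAL.KL Fermat.Agent.GAL.KLC Fermat.Agent.GAL.KLB Fermat.Agent.GAL
open Fermat.Agent.S24.FF Fermat.Agent.S27

variable {K F k Γ₀ : Type*} [Field K] [Field F] [Algebra K F] [Field k]
  [LinearOrderedCommGroupWithZero Γ₀] {v : Valuation F Γ₀} {ρ : v.integer →+* LaurentSeries k}

variable [IsAlgClosed K] [CharZero K] [IsFF1 K F]

omit [IsAlgClosed K] [CharZero K] [IsFF1 K F] in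
/-- `ord` of a finite product of non-zero elements. -/
theorem move_ord_prod (r : Place K F) {ι : Type*} (s : Finset ι) (a : ι → F)
    (ha : ∀ i ∈ s, a i ≠ 0) : r.ord (∏ i ∈ s, a i) = ∑ i ∈ s, r.ord (a i) := by
  classical
  induction s using Finset.induction_on with
  | empty => simp [Place.ord_one]
  | insert i s hi ih =>
    have h1 : a i ≠ 0 := ha i (Finset.mem_insert_self i s)
    have h2 : ∀ j ∈ s, a j ≠ 0 := fun j hj => ha j (Finset.mem_insert_of_mem hj)
    rw [Finset.prod_insert hi, Finset.sum_insert hi,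
      r.ord_mul h1 (Finset.prod_ne_zero_iff.mpr h2), ih h2]

theorem move (hρ : IsRed K v ρ) (t : v.integer) (hC : Chart K v (t : F)) (hL : Lift K ρ t)
    (S : Set K) (hSf : S.Finite) (hS : ∀ a ∈ S, vK v a ≤ 1) (D : Divisor K F) :
    ∃ f : F, f ≠ 0 ∧ ∀ r : Place K F, D r + r.ord f ≠ 0 → ¬ NearSet v (t : F) S r := by
  classical
  have hex : ∀ y : Place K F, ∃ f : F, f ≠ 0 ∧
      (NearSet v (t : F) S y → y.ord f = 1 ∧
        ∀ r : Place K F, r ≠ y → r.ord f ≠ 0 → ¬ NearSet v (t : F) S r) ∧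
      (¬ NearSet v (t : F) S y → f = 1) := by
    intro y
    by_cases hy : NearSet v (t : F) S y
    · obtain ⟨f, h0, h1, h2⟩ := move_one hρ t hC hL S hSf hS y hy
      exact ⟨f, h0, fun _ => ⟨h1, h2⟩, fun h => absurd hy h⟩
    · exact ⟨1, one_ne_zero, fun h => absurd h hy, fun _ => rfl⟩
  choose φ hφ0 hφ1 hφ2 using hex
  refine ⟨∏ y ∈ D.support, φ y ^ (-(D y)),
    Finset.prod_ne_zero_iff.mpr fun y _ => zpow_ne_zero _ (hφ0 y), ?_⟩
  intro r hr hnear
  apply hr
  rw [move_ord_prod r _ _ (fun y _ => zpow_ne_zero _ (hφ0 y))]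
  have hterm : ∀ y ∈ D.support, r.ord (φ y ^ (-(D y))) = if y = r then -(D r) else 0 := by
    intro y _
    rw [Place.ord_zpow]
    split_ifs with h
    · subst h
      rw [(hφ1 y hnear).1, mul_one]
    · have h0 : r.ord (φ y) = 0 := by
        by_cases hy : NearSet v (t : F) S y
        · by_contra h0
          exact (hφ1 y hy).2 r (Ne.symm h) h0 hnear
        · rw [hφ2 y hy, Place.ord_one]
      rw [h0, mul_zero]
  rw [Finset.sum_congr rfl hterm, Finset.sum_ite_eq']
  split_ifs with h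
  · ring
  · rw [Finsupp.notMem_support_iff.1 h, add_zero]

end Fermat.Agent.S19.R
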