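import Fermat.Agent.S19.R.ChartH
import Fermat.Agent.S19.R.C2
import Fermat.Agent.S19.R.Move
import Fermat.Agent.S19.R.LiftH
import Fermat.Agent.S19.R.GoodBad
import Fermat.Agent.GAL.FF.DegPrincipal

/-!
# S19 / R / Main : the four exports of the block
The four statements of `R/Export.lean` (primed names, so that `Export.lean` can import this file and call them).
`exists_good_repr'`: `q := 1 - C c * m` (`natDegree q = natDegree m`, `leadingCoeff q = -c`, coefficients of norm `≤ 1`), `τF := (aeval x q)⁻¹`, `hCτ := chart_inv_aeval' hch q ..`,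
`τ : v.integer := ⟨τF, le_of_eq hCτ.gauss.v_t⟩`, `hL := lift_aeval_inv hρ x hch hLift q .. τ rfl`, `S := {0, 1, (1 - c)⁻¹}` (finite, norms `≤ 1`), `move hρ τ hCτ hL S .. D` gives `f`;
`(D + divOf K f) y = D y + y.ord f`; contrapositive of `nearS_of_not_good (aeval x m) c hc hc1 _ y` with `aeval x q = 1 - algebraMap c * aeval x m`.
-/

set_option autoImplicit false

open AlgebraicCurve Polynomial

noncomputable section

namespace Fermat.Agent.S19.R

open Fermat.Agent.GAL.KL Fermat.Agent.GAL.KLC Fermat.Agent.GAL.KLB Fermat.Agent.GAL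
open Fermat.Agent.S24.FF Fermat.Agent.S27

variable {K F k Γ₀ : Type*} [Field K] [Field F] [Algebra K F] [Field k]
  [LinearOrderedCommGroupWithZero Γ₀] {v : Valuation F Γ₀} {ρ : v.integer →+* LaurentSeries k}

variable [IsAlgClosed K] [CharZero K] [IsFF1 K F]

omit [IsFF1 K F] in
theorem chart_inv_aeval' {x : F} (hx : Chart K v x) (q : K[X]) (hq : 0 < q.natDegree)
    (hqA : ∀ i, vK v (q.coeff i) ≤ 1) (hql : vK v q.leadingCoeff = 1) :
    Chart K v (aeval x q)⁻¹ := (chart_aeval hx q hq hqA hql).inv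

theorem c1_of_chart' {s : F} (hs : Chart K v s) : C1 K v s :=
  fun _ hz hv y hy hys => ev_le_one hs y hy hys hz hv

theorem c2_of_chart' {s : F} (hs : Chart K v s) {u : F} (hu : v u = 1) {y : Place K F}
    (hy0 : 0 ≤ y.ord s) (hy : vK v (val y s) ≤ 1)
    (h : ∀ y' : Place K F, y'.ord u ≠ 0 → 0 ≤ y'.ord s → vK v (val y' s) ≤ 1 →
      vK v (val y s - val y' s) = 1) :
    y.ord u = 0 ∧ vK v (val y u) = 1 := ev_eq_one hs hu y hy0 hy h

theorem exists_good_repr' (hρ : IsRed K v ρ) (x : v.integer)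
    (hch : Chart K v (x : F)) (hLift : LiftLL hρ x)
    (m : K[X]) (hm : m.Monic) (hmd : 0 < m.natDegree) (hmA : ∀ i, vK v (m.coeff i) ≤ 1)
    (c : K) (hc : vK v c = 1) (hc1 : vK v (c - 1) = 1)
    (D : Divisor K F) :
    ∃ f : F, f ≠ 0 ∧ ∀ y : Place K F, (D + FF.divOf K f) y ≠ 0 → Good v (aeval (x : F) m)⁻¹ y := by
  have hc0 : c ≠ 0 := by
    rintro rfl
    rw [map_zero] at hc
    exact zero_ne_one hc
  set q : K[X] := 1 - C c * m with hq
  have hdeg1 : (C c * m).natDegree = m.natDegree := natDegree_C_mul hc0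
  have hqd : q.natDegree = m.natDegree := by
    rw [hq, ← hdeg1]
    apply natDegree_sub_eq_right_of_natDegree_lt
    rw [natDegree_one, hdeg1]
    exact hmd
  have hqcoef : ∀ i, q.coeff i = (1 : K[X]).coeff i - c * m.coeff i := by
    intro i
    rw [hq, coeff_sub, coeff_C_mul]
  have hqA : ∀ i, vK v (q.coeff i) ≤ 1 := by
    intro i
    rw [hqcoef]
    refine (Valuation.map_sub _ _ _).trans (max_le ?_ ?_)
    · rw [coeff_one]
      split_ifs
      · rw [map_one]
      · rw [map_zero]; exact zero_le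
    · rw [map_mul, hc, one_mul]
      exact hmA i
  have hql : vK v q.leadingCoeff = 1 := by
    rw [leadingCoeff, hqd, hqcoef, coeff_one, if_neg (by omega), zero_sub, Valuation.map_neg,
      map_mul, hc, one_mul, coeff_natDegree, hm.leadingCoeff, map_one]
  have hqpos : 0 < q.natDegree := by rw [hqd]; exact hmd
  have hCτ := chart_inv_aeval' hch q hqpos hqA hql
  set τ : v.integer := ⟨(aeval (x : F) q)⁻¹, le_of_eq hCτ.gauss.v_t⟩ with hτ
  have hL : Lift K ρ τ := lift_aeval_inv hρ x hch hLift q hqpos hqA hql τ rfl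
  have hc1' : vK v (1 - c) = 1 := by rw [← hc1, ← Valuation.map_neg, neg_sub]
  have hSf : ({0, 1, (1 - c)⁻¹} : Set K).Finite := by
    simp
  have hS : ∀ a ∈ ({0, 1, (1 - c)⁻¹} : Set K), vK v a ≤ 1 := by
    intro a ha
    rcases ha with rfl | rfl | rfl
    · rw [map_zero]; exact zero_le
    · rw [map_one]
    · rw [map_inv₀, hc1', inv_one]
  obtain ⟨f, hf0, hf⟩ := move hρ τ hCτ hL _ hSf hS D
  refine ⟨f, hf0, fun y hy => ?_⟩
  by_contra hgood
  have htr : Transcendental K (aeval (x : F) m) := by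
    have hxtr : Transcendental K (x : F) := by
      rw [transcendental_iff]
      exact fun p hp => hch.gauss.inj p hp
    rw [transcendental_iff]
    intro p hp
    rw [← aeval_comp] at hp
    have h1 := hch.gauss.inj _ hp
    by_contra hp0
    have h2 : (p.comp m).natDegree = p.natDegree * m.natDegree := natDegree_comp
    rw [h1, natDegree_zero] at h2
    have h3 : p.natDegree = 0 := by
      rcases Nat.eq_zero_or_pos p.natDegree with h | h
      · exact h
      · exact absurd h2 (Nat.ne_of_lt (Nat.mul_pos h hmd))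
    rw [eq_C_of_natDegree_eq_zero h3, C_comp] at h1
    apply hp0
    rw [eq_C_of_natDegree_eq_zero h3, h1]
  have hnear := nearS_of_not_good (v := v) (aeval (x : F) m) c hc hc1 htr y hgood
  have heq : (1 - algebraMap K F c * aeval (x : F) m)⁻¹ = (τ : F) := by
    have h7 : aeval (x : F) q = 1 - algebraMap K F c * aeval (x : F) m := by
      rw [hq, map_sub, map_one, map_mul, aeval_C]
    show _ = (aeval (x : F) q)⁻¹
    rw [h7]
  rw [heq] at hnear
  refine hf y ?_ hnear
  rwa [Finsupp.add_apply, FF.divOf_apply] at hy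

end Fermat.Agent.S19.R
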