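import Fermat.Agent.S19.R.Defs
import Fermat.Agent.S19.R.Main
import Fermat.Agent.GAL.KLC.IsIntOrd
import Fermat.Agent.GAL.FF.DegPrincipal

/-!
# S19 / R : abstract charts.  THE FOUR EXPORTS of the block (statements fixed by helper73; proofs: SPEC.md §R).
Sub-architect: helper28.  Replace each `sorry` by a call to a theorem proved in another file of `S19/R/`.
-/

set_option autoImplicit false

noncomputable section

namespace Fermat.Agent.S19.R

open AlgebraicCurve Polynomial Fermat.Agent.S24.FF Fermat.Agent.GAL.KL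
  Fermat.Agent.GAL.KLC Fermat.Agent.GAL.KLB Fermat.Agent.GAL.FF
open Fermat.Agent.S27 (val)

variable {K F k Γ₀ : Type*} [Field K] [Field F] [Algebra K F] [Field k]
  [LinearOrderedCommGroupWithZero Γ₀] [IsAlgClosed K] [CharZero K] [IsFF1 K F]
  {v : Valuation F Γ₀}

/-- (R1) `1/q(x)` is a chart, for `q` with integral coefficients and unit leading coefficient.
(`{x^i β_j}_{i < deg q}` is ON and spanning over `K[q(x)]`; then `.inv`.) -/
theorem chart_inv_aeval {x : F} (hx : Chart K v x) (q : K[X]) (hq : 0 < q.natDegree)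
    (hqA : ∀ i, vK v (q.coeff i) ≤ 1) (hql : vK v q.leadingCoeff = 1) :
    Chart K v (aeval x q)⁻¹ :=
  chart_inv_aeval' hx q hq hqA hql

/-- (R2) = (C1). (`z` is integral over `A[s]` by the determinant trick in an ON basis of `B_s`, cf.
`KLB.isInt_rho`; evaluate at `y`; `A` is integrally closed.) -/
theorem c1_of_chart {s : F} (hs : Chart K v s) : C1 K v s :=
  c1_of_chart' hs

/-- (R3) = (C2): a function of Gauss norm `1` has unit values away from the reduction of its divisor. -/
theorem c2_of_chart {s : F} (hs : Chart K v s) {u : F} (hu : v u = 1) {y : Place K F}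
    (hy0 : 0 ≤ y.ord s) (hy : vK v (val y s) ≤ 1)
    (h : ∀ y' : Place K F, y'.ord u ≠ 0 → 0 ≤ y'.ord s → vK v (val y' s) ≤ 1 →
      vK v (val y s - val y' s) = 1) :
    y.ord u = 0 ∧ vK v (val y u) = 1 :=
  c2_of_chart' hs hu hy0 hy h

/-- (R4) **moving lemma** (the only use of good reduction = `hLift`): every divisor is linearly equivalent
to a divisor supported in the good locus of the chart `s = 1/m(x)`. -/
theorem exists_good_repr {ρ : v.integer →+* LaurentSeries k} (hρ : IsRed K v ρ) (x : v.integer)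
    (hch : Chart K v (x : F)) (hLift : LiftLL hρ x)
    (m : K[X]) (hm : m.Monic) (hmd : 0 < m.natDegree) (hmA : ∀ i, vK v (m.coeff i) ≤ 1)
    (c : K) (hc : vK v c = 1) (hc1 : vK v (c - 1) = 1)
    (D : Divisor K F) :
    ∃ f : F, f ≠ 0 ∧ ∀ y : Place K F, (D + divOf K f) y ≠ 0 → Good v (aeval (x : F) m)⁻¹ y :=
  exists_good_repr' hρ x hch hLift m hm hmd hmA c hc hc1 D

end Fermat.Agent.S19.R
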