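import Fermat.Agent.S27.A.Api
import Fermat.Agent.GAL.KLB.Count
import Fermat.Agent.GAL.KLB.Base
import Fermat.Agent.GAL.KL.BasicInt
import Fermat.Agent.GAL.KL.BasicGauss

/-!
# S19 / R : abstract chart lemmas.  Definitions (no sorry).

Setting (language of `GAL/KL`, `GAL/KLC`, `GAL/KLB`): `F/K` fields, `v` a valuation of `F` ("Gauss norm"),
`ρ : O_v → k((q))` a reduction map (`KLC.IsRed K v ρ`), `t : O_v` a chart parameter.

* `vK v`        : the induced valuation of `K`
* `Chart K v t` : `v` is the Gauss norm on `K[t]` and `F` has an orthonormal family spanning it over `K(t)`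
* `Lift K ρ t`  : every element of the residue field `F̄ = range ρ` that is integral over `k[t̄]` is the
                  reduction of an element of `B_t ∩ O_v`   ("the reduced chart is normal")
* `BBa K t`     : the chart ring `B_t` (integral closure of `K[t]` in `F`) as a `K`-subalgebra of `F`;
                  the *points* of the chart are the `K`-algebra homomorphisms `BBa K t →ₐ[K] K`
* `Bb hρ ξ`     : the reduced chart ring `B̄ = {φ ∈ F̄ | φ integral over k[ξ]}` as a `k`-subalgebra of `k((q))`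
-/

set_option autoImplicit false

open AlgebraicCurve Polynomial

noncomputable section

namespace Fermat.Agent.S19.R

open Fermat.Agent.GAL.KL Fermat.Agent.GAL.KLC Fermat.Agent.GAL.KLB
open Fermat.Agent.S27 (val)

variable {K F k Γ₀ : Type*} [Field K] [Field F] [Algebra K F] [Field k]
  [LinearOrderedCommGroupWithZero Γ₀]

/-- the valuation of the constants. -/
def vK (v : Valuation F Γ₀) : Valuation K Γ₀ := v.comap (algebraMap K F)

theorem vK_apply (v : Valuation F Γ₀) (a : K) : vK v a = v (algebraMap K F a) := rfl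

/-- chart data: Gauss norm + orthonormal spanning family. -/
structure Chart (K : Type*) {F Γ₀ : Type*} [Field K] [Field F] [Algebra K F]
    [LinearOrderedCommGroupWithZero Γ₀] (v : Valuation F Γ₀) (t : F) : Prop where
  gauss : Gauss K v t
  on : ∃ (d : ℕ) (β : Fin d → F), ON K v t β ∧ Spans K t β

/-- the reduced chart is normal: integral elements of the residue field lift to `B_t ∩ O_v`. -/
def Lift (K : Type*) {F k Γ₀ : Type*} [Field K] [Field F] [Algebra K F] [Field k]
    [LinearOrderedCommGroupWithZero Γ₀] {v : Valuation F Γ₀} (ρ : v.integer →+* LaurentSeries k)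
    (t : v.integer) : Prop :=
  ∀ z : v.integer, IsInt k (ρ t) (ρ z) → ∃ z' : v.integer, IsInt K (t : F) (z' : F) ∧ ρ z' = ρ z

/-- the chart ring `B_t` as a `K`-subalgebra. -/
def BBa (K : Type*) {F : Type*} [Field K] [Field F] [Algebra K F] (t : F) : Subalgebra K F where
  carrier := BB K t
  mul_mem' := fun h h' => IsInt.mul h h'
  add_mem' := fun h h' => IsInt.add h h'
  algebraMap_mem' := fun a => IsInt.algebraMap a

theorem mem_BBa {t z : F} : z ∈ BBa K t ↔ IsInt K t z := Iff.rfl

/-- the parameter as an element of the chart ring. -/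
def tB (K : Type*) {F : Type*} [Field K] [Field F] [Algebra K F] (t : F) : BBa K t :=
  ⟨t, by
    have h : IsInt K t (aeval t (X : K[X])) := IsInt.aeval X
    rw [aeval_X] at h
    exact h⟩

@[simp] theorem coe_tB (t : F) : ((tB K t : BBa K t) : F) = t := rfl

variable {v : Valuation F Γ₀} {ρ : v.integer →+* LaurentSeries k}

/-- the reduced chart ring. -/
def Bb (hρ : IsRed K v ρ) (ξ : LaurentSeries k) : Subalgebra k (LaurentSeries k) where
  carrier := {φ | IsInt k ξ φ ∧ ∃ z : v.integer, ρ z = φ}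
  mul_mem' := by
    rintro _ _ ⟨h, z, rfl⟩ ⟨h', z', rfl⟩
    exact ⟨h.mul h', z * z', map_mul _ _ _⟩
  add_mem' := by
    rintro _ _ ⟨h, z, rfl⟩ ⟨h', z', rfl⟩
    exact ⟨h.add h', z + z', map_add _ _ _⟩
  algebraMap_mem' := fun c => by
    refine ⟨IsInt.algebraMap c, ?_⟩
    obtain ⟨a, rfl⟩ := resK_surjective hρ c
    exact ⟨toInt K v a, by
      rw [rho_toInt' hρ, ModularCurve.algebraMap_laurentSeries_eq_single]; rfl⟩

theorem mem_Bb (hρ : IsRed K v ρ) {ξ φ : LaurentSeries k} :
    φ ∈ Bb hρ ξ ↔ IsInt k ξ φ ∧ ∃ z : v.integer, ρ z = φ := Iff.rfl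

section Places

/-- the place `y` lies in the residue disc (for the coordinate `s`) of one of the constants in `S`. -/
def NearS (v : Valuation F Γ₀) (s : F) (S : Finset K) (y : Place K F) : Prop :=
  0 ≤ y.ord s ∧ ∃ a ∈ S, vK v (val y s - a) < 1

/-- the good locus of the coordinate `s`: `|s(y)| = 1` and `|s(y) - 1| = 1`
(i.e. `s̄(y) ∉ {0, 1, ∞}`).  VALUES ARE `S27.val` (API in `S27/A/Api.lean`), as in block [W]. -/
def Good (v : Valuation F Γ₀) (s : F) (y : Place K F) : Prop :=
  0 ≤ y.ord s ∧ vK v (val y s) = 1 ∧ vK v (val y s - 1) = 1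

/-- the bad locus of the coordinate `s`: `s̄(y) ∈ {0, 1}`. -/
def Bad (v : Valuation F Γ₀) (s : F) (y : Place K F) : Prop :=
  0 ≤ y.ord s ∧ (vK v (val y s) < 1 ∨ vK v (val y s - 1) < 1)

/-- (C1) for the parameter `s`: functions of `B_s ∩ O_v` have integral values in the chart `|s| ≤ 1`. -/
def C1 (K : Type*) {F Γ₀ : Type*} [Field K] [Field F] [Algebra K F]
    [LinearOrderedCommGroupWithZero Γ₀] (v : Valuation F Γ₀) (s : F) : Prop :=
  ∀ z : F, IsInt K s z → v z ≤ 1 → ∀ y : Place K F, 0 ≤ y.ord s → vK v (val y s) ≤ 1 →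
    vK v (val y z) ≤ 1

/-- the graded lifting property of the chart `x` (= `KLB.exists_redW_LL_eq`). -/
def LiftLL (hρ : IsRed K v ρ) (x : v.integer) : Prop :=
  ∃ a₀ : ℕ, ∀ a, a₀ ≤ a → redW hρ (LL K (x : F) a) = Bbar hρ (ρ x) a

end Places

end Fermat.Agent.S19.R
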