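import Fermat.Agent.S19.R.C1

/-!
# S19 / R / BbBasic : basic facts on the reduced chart ring
`transcendental_rho`: `pb : k[X]`, `aeval (ρ t) pb = 0`, `pb ≠ 0`: lift the coefficients (`resK_surjective`) to
`P : (AK K v)[X]` with `P.map (resK hρ) = pb`; `ρ (eval₂ (toInt K v) t P) = aeval (ρ t) pb = 0` (`KLB.rho_aeval`) so
`v (aeval t (P.map subtype)) < 1` (`hρ.ker`, `coe_eval₂_toInt`); Gauss (`Gauss.lt_iff`) ⇒ all coefficients have norm `< 1` ⇒
`pb = 0` (`resK_eq_zero_iff`).   `exists_lift_Bb`: unfold `Bb`, `Lift`.   `rho_mem_Bb`: `KLB.isInt_rho`.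
`Bb_fg`: ON basis `e_j` of `B_t` (`Chart.exists_basis`), `ε j := ρ ⟨e j, _⟩`; `φ = ρ z`, `z = ∑ p_j(t) e_j` with integral
coefficients (as in the proof of `isInt_rho`: `exists_lift_poly`, `coe_eval₂_toInt`, `rho_aeval`).
`Bb_div_mem`: `a = ρ z_a`, `b = ρ z_b ≠ 0` ⇒ `v z_b = 1` (`hρ.ker`) ⇒ `ρ (z_a * invInt z_b _) = a / b` (`KLB.rho_invInt`,
import `Fermat.Agent.GAL.KLB.Count`).
-/

set_option autoImplicit false

open AlgebraicCurve Polynomial

noncomputable section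

namespace Fermat.Agent.S19.R

open Fermat.Agent.GAL.KL Fermat.Agent.GAL.KLC Fermat.Agent.GAL.KLB Fermat.Agent.GAL
open Fermat.Agent.S24.FF Fermat.Agent.S27

variable {K F k Γ₀ : Type*} [Field K] [Field F] [Algebra K F] [Field k]
  [LinearOrderedCommGroupWithZero Γ₀] {v : Valuation F Γ₀} {ρ : v.integer →+* LaurentSeries k}

variable [IsAlgClosed K] [CharZero K]

theorem transcendental_rho (hρ : IsRed K v ρ) (t : v.integer) (hC : Chart K v (t : F)) :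
    Transcendental k (ρ t) := by
  rw [transcendental_iff]
  intro pb hpb
  obtain ⟨P, rfl⟩ := Polynomial.map_surjective (resK hρ) (resK_surjective hρ) pb
  rw [← rho_aeval hρ, hρ.ker, coe_eval₂_toInt, hC.gauss.lt_iff _ _ one_ne_zero] at hpb
  ext i
  rw [coeff_map, coeff_zero, resK_eq_zero_iff]
  have := hpb i
  rwa [coeff_map] at this

/-- every element of `B̄` is the reduction of an element of `B_t ∩ O_v`. -/
theorem exists_lift_Bb (hρ : IsRed K v ρ) (t : v.integer) (hL : Lift K ρ t) (φ : Bb hρ (ρ t)) :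
    ∃ (z : BBa K (t : F)) (hz : v (z : F) ≤ 1), ρ ⟨z, hz⟩ = φ := by
  obtain ⟨hint, z, hz⟩ := φ.2
  obtain ⟨z', hz'int, hz'⟩ := hL z (by rw [hz]; exact hint)
  exact ⟨⟨z', hz'int⟩, z'.2, by rw [← hz, ← hz']⟩

theorem rho_mem_Bb (hρ : IsRed K v ρ) (t : v.integer) (hC : Chart K v (t : F))
    (z : BBa K (t : F)) (hz : v (z : F) ≤ 1) : ρ ⟨z, hz⟩ ∈ Bb hρ (ρ t) := by
  obtain ⟨d, β, hβ, hβs⟩ := hC.on
  exact ⟨isInt_rho hρ t hC.gauss β hβ hβs ⟨z, hz⟩ z.2, ⟨_, rfl⟩⟩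

/-- finite generation of `B̄` over `k[t̄]`. -/
theorem Bb_fg (hρ : IsRed K v ρ) (t : v.integer) (hC : Chart K v (t : F)) (hL : Lift K ρ t) :
    ∃ (d : ℕ) (ε : Fin d → LaurentSeries k), (∀ i, ε i ∈ Bb hρ (ρ t)) ∧
      ∀ φ ∈ Bb hρ (ρ t), ∃ p : Fin d → k[X], φ = ∑ i, aeval (ρ t) (p i) * ε i := by
  obtain ⟨d, e, he, hON⟩ := hC.exists_basis
  have hemem : ∀ j, IsInt K (t : F) (e j) := fun j =>
    (he.2 (e j)).2 ⟨Pi.single j 1, by rw [comb_single, map_one, one_mul]⟩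
  let E : Fin d → v.integer := fun j => ⟨e j, le_of_eq (hON.v_eq_one j)⟩
  refine ⟨d, fun j => ρ (E j), fun j =>
    rho_mem_Bb hρ t hC ⟨e j, hemem j⟩ (le_of_eq (hON.v_eq_one j)), fun φ hφ => ?_⟩
  obtain ⟨z, hz, hzφ⟩ := exists_lift_Bb hρ t hL ⟨φ, hφ⟩
  obtain ⟨P, hP⟩ := (he.2 (z : F)).1 z.2
  have hv : ∀ i n, v (algebraMap K F ((P i).coeff n)) ≤ 1 := by
    intro i
    refine (hC.gauss (P i) 1).1 ?_
    refine (hON P 1).1 ?_ i
    rw [← hP]
    exact hz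
  have hQ : ∀ i, ∃ Q : (AK K v)[X], Q.map (AK K v).subtype = P i := fun i =>
    exists_lift_poly (P i) (hv i)
  choose Q hQ using hQ
  have hE : (⟨z, hz⟩ : v.integer) = ∑ i, eval₂ (toInt K v) t (Q i) * E i := by
    apply Subtype.ext
    have h1 : ((∑ i, eval₂ (toInt K v) t (Q i) * E i : v.integer) : F)
        = ∑ i, aeval (t : F) (P i) * e i := by
      rw [← Subring.subtype_apply, map_sum]
      refine Finset.sum_congr rfl fun i _ => ?_
      rw [map_mul, Subring.subtype_apply, Subring.subtype_apply, coe_eval₂_toInt, hQ]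
    rw [h1]
    exact hP
  refine ⟨fun i => (Q i).map (resK hρ), ?_⟩
  have h2 : φ = ρ ⟨z, hz⟩ := hzφ.symm
  rw [h2, hE, map_sum]
  refine Finset.sum_congr rfl fun i _ => ?_
  rw [map_mul, rho_aeval hρ]

/-- `B̄` is integrally closed (elementwise form). -/
theorem Bb_div_mem (hρ : IsRed K v ρ) (ξ : LaurentSeries k) (a b : LaurentSeries k)
    (ha : a ∈ Bb hρ ξ) (hb : b ∈ Bb hρ ξ) (hb0 : b ≠ 0) (h : IsInt k ξ (a / b)) :
    a / b ∈ Bb hρ ξ := by
  obtain ⟨-, za, rfl⟩ := ha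
  obtain ⟨-, zb, rfl⟩ := hb
  have hvb : v (zb : F) = 1 :=
    le_antisymm zb.2 (not_lt.mp fun hlt => hb0 ((hρ.ker zb).2 hlt))
  exact ⟨h, za * invInt zb hvb, by rw [map_mul, rho_invInt, div_eq_mul_inv]⟩

end Fermat.Agent.S19.R
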