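import Fermat.Agent.S19.R.Pt
import Fermat.Agent.GAL.KLB.IntRed
import Fermat.Agent.S37.Inv.IntA

/-!
# S19 / R / C1 : (C1) points of a chart are contracting
`exists_basis`: the first two lines of the proof of `KLB.isInt_rho` (`KLB/IntRed.lean`):
`exists_basis_BB hG.inj β (ON.inj hG hβ) hβs`, then `exists_ON_basis hG β hβ hβs (BB K t) b hb`.
`pt_le_one`: copy the proof of `KLB.isInt_rho`: `z e_j = ∑ P_ji(t) e_i`, all coefficients of `P_ji` have `v ≤ 1`
(ON + Gauss), so `z` is a root of the characteristic polynomial `χ` of the matrix `(P_ji(t))`, i.e. of a monic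
polynomial whose coefficients are `aeval t p`, `p : K[X]` with coefficients of norm `≤ 1`
(work in `BBa K t`: matrix `Mx j i := aeval (tB K t) (P j i) : BBa K t`; `KLB.intRed_isIntegralElem` with
`f := RingHom.id` or `Matrix.aeval_self_charpoly`-free determinant trick as there).  Apply the ring hom `e`:
`e z` is a root of the monic polynomial `χ.map e` whose coefficients are polynomial expressions with integer
coefficients in the `e (aeval (tB) (P j i)) = (P j i).eval (e tB)`, which have `vK ≤ 1`.  So `e z` is integral over the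
valuation ring `(vK v).integer` (or `(vK v).valuationSubring`) of `K`, which is integrally closed: `vK v (e z) ≤ 1`.
(Simplest: the matrix `N j i := (P j i).eval (e tB)` has entries in the subring `(vK v).integer`; `e z` is an eigenvalue of
`N` (eigenvector `e (e_j)`, NOT all zero because `1 = ∑ p_j(t) e_j`); `intRed_isIntegralElem` with
`f := (vK v).integer.subtype` gives integrality; `Valuation.integer` of a field valuation is integrally closed:
`Valuation.Integers.isIntegrallyClosed`/`ValuationSubring` instance, or directly: a monic equation with `|a| > 1` is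
impossible by the ultrametric inequality.)
`pt_le`: `z = 0` trivial; else `hρ.val z` gives `a` with `v z = v (algebraMap a)`; apply `pt_le_one` to `a⁻¹ • z`.
`pt_lt_one`: from `pt_le`.
-/

set_option autoImplicit false

open AlgebraicCurve Polynomial

noncomputable section

namespace Fermat.Agent.S19.R

open Fermat.Agent.GAL.KL Fermat.Agent.GAL.KLC Fermat.Agent.GAL.KLB Fermat.Agent.GAL
open Fermat.Agent.S24.FF Fermat.Agent.S27

variable {K F k Γ₀ : Type*} [Field K] [Field F] [Algebra K F] [Field k]
  [LinearOrderedCommGroupWithZero Γ₀] {v : Valuation F Γ₀} {ρ : v.integer →+* LaurentSeries k}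

variable [IsAlgClosed K] [CharZero K]

/-- an orthonormal `K[t]`-basis of the chart ring. -/
theorem Chart.exists_basis {t : F} (hC : Chart K v t) :
    ∃ (d : ℕ) (e : Fin d → F), IsBasis K t e (BB K t) ∧ ON K v t e := by
  obtain ⟨d, β, hβ, hβs⟩ := hC.on
  obtain ⟨b, hb⟩ := exists_basis_BB hC.gauss.inj β (ON.inj hC.gauss hβ) hβs
  obtain ⟨e, he, hON⟩ := exists_ON_basis hC.gauss β hβ hβs (BB K t) b hb
  exact ⟨d, e, he, hON⟩

/-- **(C1)** points of the chart with `|t| ≤ 1` are contracting. -/
theorem pt_le_one {t : F} (hC : Chart K v t) (e : BBa K t →ₐ[K] K) (he : vK v (e (tB K t)) ≤ 1)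
    (z : BBa K t) (hz : v (z : F) ≤ 1) : vK v (e z) ≤ 1 := by
  obtain ⟨d, β, hβ, hβs⟩ := hC.on
  obtain ⟨R, hRm, hR⟩ := S37.Inv.isIntegralElem_toInt (⟨t, hC.gauss.v_t.le⟩ : v.integer) hC.gauss β hβ hβs
    (⟨z, hz⟩ : v.integer) z.2
  have key : e z ∈ AK K v := by
    apply S37.Inv.mem_AK_of_isIntegralElem
    refine ⟨R.map (evalRingHom (⟨e (tB K t), he⟩ : AK K v)), hRm.map _, ?_⟩
    rw [eval₂_map]
    let g' : (AK K v)[X] →+* BBa K t :=
      eval₂RingHom ((algebraMap K (BBa K t)).comp (AK K v).subtype) (tB K t)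
    have h1 : (v.integer.subtype).comp
        (eval₂RingHom (toInt K v) (⟨t, hC.gauss.v_t.le⟩ : v.integer)) =
        ((BBa K t).val : BBa K t →+* F).comp g' := by
      apply Polynomial.ringHom_ext
      · intro a
        simp only [RingHom.comp_apply, coe_eval₂RingHom, eval₂_C, g']
        rfl
      · simp only [RingHom.comp_apply, coe_eval₂RingHom, eval₂_X, g']
        rfl
    have h2 : (e : BBa K t →+* K).comp g' =
        (AK K v).subtype.comp (evalRingHom (⟨e (tB K t), he⟩ : AK K v)) := by
      apply Polynomial.ringHom_ext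
      · intro a
        simp only [RingHom.comp_apply, coe_eval₂RingHom, eval₂_C, g', coe_evalRingHom, eval_C]
        exact e.commutes _
      · simp only [RingHom.comp_apply, coe_eval₂RingHom, eval₂_X, g', coe_evalRingHom, eval_X]
        rfl
    have h3 : eval₂ g' z R = 0 := by
      apply Subtype.ext
      have h4 : ((BBa K t).val : BBa K t →+* F) (eval₂ g' z R) = 0 := by
        rw [Polynomial.hom_eval₂, ← h1]
        have h6 := congrArg v.integer.subtype hR
        rw [Polynomial.hom_eval₂, map_zero] at h6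
        exact h6
      exact h4
    have h5 := congrArg (e : BBa K t →+* K) h3
    rw [Polynomial.hom_eval₂, h2, map_zero] at h5
    exact h5
  exact key

theorem pt_le (hρ : IsRed K v ρ) {t : F} (hC : Chart K v t) (e : BBa K t →ₐ[K] K)
    (he : vK v (e (tB K t)) ≤ 1) (z : BBa K t) : vK v (e z) ≤ v (z : F) := by
  by_cases hz0 : (z : F) = 0
  · have : z = 0 := Subtype.ext hz0
    rw [this, map_zero, map_zero]
    exact zero_le
  obtain ⟨a, ha⟩ := hρ.val (z : F) hz0
  have hvz : v (z : F) ≠ 0 := (Valuation.ne_zero_iff v).mpr hz0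
  have ha0 : a ≠ 0 := by
    rintro rfl
    rw [map_zero, map_zero] at ha
    exact hvz ha
  have hva : vK v a ≠ 0 := (Valuation.ne_zero_iff _).mpr ha0
  have h1 : v ((a⁻¹ • z : BBa K t) : F) ≤ 1 := by
    have : ((a⁻¹ • z : BBa K t) : F) = algebraMap K F a⁻¹ * (z : F) := by
      rw [← Algebra.smul_def]; rfl
    rw [this, map_mul, map_inv₀, map_inv₀, ha]
    exact le_of_eq (inv_mul_cancel₀ (ha ▸ hvz))
  have h2 := pt_le_one hC e he (a⁻¹ • z) h1
  rw [map_smul, smul_eq_mul, map_mul, map_inv₀] at h2
  rw [ha, ← vK_apply]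
  calc vK v (e z) = vK v a * ((vK v a)⁻¹ * vK v (e z)) := by
        rw [← mul_assoc, mul_inv_cancel₀ hva, one_mul]
    _ ≤ vK v a * 1 := by gcongr
    _ = vK v a := mul_one _

theorem pt_lt_one (hρ : IsRed K v ρ) {t : F} (hC : Chart K v t) (e : BBa K t →ₐ[K] K)
    (he : vK v (e (tB K t)) ≤ 1) (z : BBa K t) (hz : v (z : F) < 1) : vK v (e z) < 1 :=
  lt_of_le_of_lt (pt_le hρ hC e he z) hz

end Fermat.Agent.S19.R
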