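import Fermat.Agent.S19.R.C1

/-!
# S19 / R / C1P : (C1) for places
(done)
-/

set_option autoImplicit false

open AlgebraicCurve Polynomial

noncomputable section

namespace Fermat.Agent.S19.R

open Fermat.Agent.GAL.KL Fermat.Agent.GAL.KLC Fermat.Agent.GAL.KLB Fermat.Agent.GAL
open Fermat.Agent.S24.FF Fermat.Agent.S27

variable {K F k Γ₀ : Type*} [Field K] [Field F] [Algebra K F] [Field k]
  [LinearOrderedCommGroupWithZero Γ₀] {v : Valuation F Γ₀} {ρ : v.integer →+* LaurentSeries k}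

variable [IsAlgClosed K] [CharZero K] [IsFF1 K F]

/-- **(C1)** for places. -/
theorem ev_le_one {t : F} (hC : Chart K v t) (P : Place K F) (hP : 0 ≤ P.ord t)
    (hPt : vK v (val P t) ≤ 1) {z : F} (hz : IsInt K t z) (hv : v z ≤ 1) : vK v (val P z) ≤ 1 :=
  pt_le_one hC (evB P hP) hPt ⟨z, hz⟩ hv

end Fermat.Agent.S19.R
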