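import Fermat.Agent.S19.R.Defs
import Fermat.Agent.S37.Inv.IntA

/-!
# S19 / R2 = (C1): functions of `B_s ∩ O_v` have integral values in the chart `|s| ≤ 1`
(= `S37.Inv.val_mem_AK`).
-/

set_option autoImplicit false

noncomputable section

namespace Fermat.Agent.S19.R

open AlgebraicCurve Polynomial Fermat.Agent.S24.FF Fermat.Agent.GAL.KL
  Fermat.Agent.GAL.KLC Fermat.Agent.GAL.KLB
open Fermat.Agent.S27 (val)

variable {K F Γ₀ : Type*} [Field K] [Field F] [Algebra K F]
  [LinearOrderedCommGroupWithZero Γ₀] [IsAlgClosed K] [CharZero K] [IsFF1 K F]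
  {v : Valuation F Γ₀}

theorem c1_val {s : F} (hs : Chart K v s) : C1 K v s := by
  obtain ⟨d, β, hβ, hβs⟩ := hs.on
  intro z hz hv y hy hys
  exact Fermat.Agent.S37.Inv.val_mem_AK (⟨s, hs.gauss.v_t.le⟩ : v.integer) hs.gauss β hβ hβs
    (⟨z, hv⟩ : v.integer) hz y hy hys

end Fermat.Agent.S19.R
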