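import Fermat.Agent.S19.R.Defs2

/-!
# S19 / R / DivQNorm : division by q is an isometry for the Gauss norms
PURE POLYNOMIAL ALGEBRA over a valued field `(K, w)`, `e := q.natDegree`.
(⇐) `S_γ := {p | ∀ n, w (p.coeff n) ≤ γ}` is an additive subgroup, stable under multiplication by polynomials with coefficients of norm `≤ 1`
(`coeff_mul`, `Valuation.map_sum_le`); `q ^ l ∈ S_1`-type; `(c i).comp q = ∑ l, C (c_il) * q ^ l` (`Polynomial.comp_eq_sum_left`/`eval₂_eq_sum`).
(⇒) by contradiction.  Suppose some `w (c_il) > γ`.  Let `μ := max w (c_il)` over the finite set of pairs `(i, l)`, `l ≤ max natDegree`, and among the pairs with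
`w (c_il) = μ` take the one with `N := e * l + i` maximal (`Finset.exists_max_image` twice; `(i, l) ↦ e l + i` is injective as `i < e`).
The coefficient of `X ^ N` in `phiQ q c = ∑_{i', l'} c_{i'l'} q^{l'} X^{i'}`: the term `(i, l)` contributes `c_il * lc(q)^l` (norm `μ`;
`coeff_natDegree`, `natDegree_pow`, `leadingCoeff_pow`); terms with `e l' + i' < N` contribute `0` (degree); terms with `e l' + i' > N` have
`w (c_{i'l'}) < μ` and `q^{l'} X^{i'}` has coefficients of norm `≤ 1`.  So the coefficient has norm exactly `μ > γ`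
(`Valuation.map_add_eq_of_lt_left`, `Valuation.map_sum_lt`).  Contradiction.
ALTERNATIVE: induction with `divByMonic` after normalising `q` (division by a monic polynomial with integral coefficients preserves integrality:
`Polynomial.map_divByMonic`, `map_modByMonic` for the inclusion of `w.integer`).
-/

set_option autoImplicit false

open AlgebraicCurve Polynomial

noncomputable section

namespace Fermat.Agent.S19.R

open Fermat.Agent.GAL.KL Fermat.Agent.GAL.KLC Fermat.Agent.GAL.KLB Fermat.Agent.GAL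
open Fermat.Agent.S24.FF Fermat.Agent.S27

variable {K F k Γ₀ : Type*} [Field K] [Field F] [Algebra K F] [Field k]
  [LinearOrderedCommGroupWithZero Γ₀] {v : Valuation F Γ₀} {ρ : v.integer →+* LaurentSeries k}

/-- products with a polynomial with integral coefficients. -/
theorem divQNorm_mul (w : Valuation K Γ₀) {p r : K[X]} {γ : Γ₀} (hp : ∀ n, w (p.coeff n) ≤ 1)
    (hr : ∀ n, w (r.coeff n) ≤ γ) (n : ℕ) : w ((p * r).coeff n) ≤ γ := by
  rw [coeff_mul]
  refine Valuation.map_sum_le w fun x _ => ?_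
  rw [map_mul]
  exact (mul_le_mul' (hp _) (hr _)).trans (by rw [one_mul])

theorem divQNorm_pow (w : Valuation K Γ₀) {p : K[X]} (hp : ∀ n, w (p.coeff n) ≤ 1) (l n : ℕ) :
    w ((p ^ l).coeff n) ≤ 1 := by
  induction l generalizing n with
  | zero =>
    rw [pow_zero, coeff_one]
    split_ifs
    · rw [map_one]
    · rw [map_zero]; exact zero_le
  | succ l ih =>
    rw [pow_succ']
    exact divQNorm_mul w hp ih n

theorem divQNorm_X_pow (w : Valuation K Γ₀) (i n : ℕ) : w ((X ^ i : K[X]).coeff n) ≤ 1 := by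
  rw [coeff_X_pow]
  split_ifs
  · rw [map_one]
  · rw [map_zero]; exact zero_le

/-- a finite family of polynomials with integral coefficients, unit leading coefficients and
pairwise distinct degrees is orthonormal for the Gauss norm. -/
theorem divQNorm_tri (w : Valuation K Γ₀) {ι : Type*} (s : Finset ι) (T : ι → K[X])
    (hT : ∀ j ∈ s, ∀ n, w ((T j).coeff n) ≤ 1) (hlc : ∀ j ∈ s, w (T j).leadingCoeff = 1)
    (hd : ∀ j ∈ s, ∀ j' ∈ s, (T j).natDegree = (T j').natDegree → j = j') (a : ι → K) (γ : Γ₀) :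
    (∀ n, w ((∑ j ∈ s, C (a j) * T j).coeff n) ≤ γ) ↔ ∀ j ∈ s, w (a j) ≤ γ := by
  classical
  have hcoeff : ∀ n, (∑ j ∈ s, C (a j) * T j).coeff n = ∑ j ∈ s, a j * (T j).coeff n := by
    intro n
    rw [finsetSum_coeff]
    exact Finset.sum_congr rfl fun j _ => coeff_C_mul _
  constructor
  · intro h
    by_contra hcon
    push Not at hcon
    obtain ⟨j₀, hj₀, hlt₀⟩ := hcon
    obtain ⟨j₁, hj₁, hmax⟩ := Finset.exists_max_image s (fun j => w (a j)) ⟨j₀, hj₀⟩
    set μ : Γ₀ := w (a j₁) with hμ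
    have hγμ : γ < μ := lt_of_lt_of_le hlt₀ (hmax j₀ hj₀)
    have hμ0 : μ ≠ 0 := (lt_of_le_of_lt zero_le hγμ).ne'
    obtain ⟨js, hjs, hmax'⟩ := Finset.exists_max_image (s.filter fun j => w (a j) = μ)
      (fun j => (T j).natDegree) ⟨j₁, Finset.mem_filter.2 ⟨hj₁, rfl⟩⟩
    obtain ⟨hjs1, hjs2⟩ := Finset.mem_filter.1 hjs
    set N := (T js).natDegree with hN
    have h1 := h N
    rw [hcoeff, ← Finset.add_sum_erase s _ hjs1] at h1
    have h2 : w (a js * (T js).coeff N) = μ := by
      rw [map_mul, hjs2, hN, coeff_natDegree, hlc js hjs1, mul_one]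
    have h3 : w (∑ j ∈ s.erase js, a j * (T j).coeff N) < w (a js * (T js).coeff N) := by
      rw [h2]
      refine Valuation.map_sum_lt w hμ0 fun j hj => ?_
      obtain ⟨hne, hjs'⟩ := Finset.mem_erase.1 hj
      by_cases hj' : w (a j) = μ
      · have h4 : (T j).natDegree ≤ N := hmax' j (Finset.mem_filter.2 ⟨hjs', hj'⟩)
        have h5 : (T j).natDegree ≠ N := fun h6 => hne (hd j hjs' js hjs1 h6)
        rw [coeff_eq_zero_of_natDegree_lt (lt_of_le_of_ne h4 h5), mul_zero, map_zero]
        exact zero_lt_iff.2 hμ0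
      · rw [map_mul]
        calc w (a j) * w ((T j).coeff N) ≤ w (a j) * 1 := mul_le_mul' le_rfl (hT j hjs' N)
          _ = w (a j) := mul_one _
          _ < μ := lt_of_le_of_ne (hmax j hjs') hj'
    rw [Valuation.map_add_eq_of_lt_left w h3, h2] at h1
    exact absurd hγμ (not_lt.2 h1)
  · intro h n
    rw [hcoeff]
    refine Valuation.map_sum_le w fun j hj => ?_
    rw [map_mul]
    exact (mul_le_mul' (h j hj) (hT j hj n)).trans (by rw [mul_one])

/-- `phiQ q c` as a combination of the polynomials `q ^ l * X ^ i`. -/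
theorem divQNorm_phiQ_eq (q : K[X]) {e : ℕ} (c : Fin e → K[X]) (L : ℕ)
    (hL : ∀ i, (c i).natDegree < L) :
    phiQ q c = ∑ j ∈ (Finset.univ : Finset (Fin e)) ×ˢ Finset.range L,
      C ((c j.1).coeff j.2) * (q ^ j.2 * X ^ (j.1 : ℕ)) := by
  rw [phiQ, Finset.sum_product]
  refine Finset.sum_congr rfl fun i _ => ?_
  rw [comp, eval₂_eq_sum_range' C (hL i), Finset.sum_mul]
  exact Finset.sum_congr rfl fun l _ => by rw [mul_assoc]

theorem divQNorm_aux (w : Valuation K Γ₀) (q : K[X]) {e : ℕ} (he : q.natDegree = e) (hq : 0 < e)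
    (hqA : ∀ i, w (q.coeff i) ≤ 1) (hql : w q.leadingCoeff = 1) (c : Fin e → K[X])
    (γ : Γ₀) : (∀ n, w ((phiQ q c).coeff n) ≤ γ) ↔ ∀ i n, w ((c i).coeff n) ≤ γ := by
  have hq0 : q ≠ 0 := by
    rintro rfl
    rw [natDegree_zero] at he
    omega
  set L : ℕ := (Finset.univ.sup fun i => (c i).natDegree) + 1 with hLdef
  have hL : ∀ i, (c i).natDegree < L := fun i =>
    Nat.lt_succ_of_le (Finset.le_sup (f := fun i => (c i).natDegree) (Finset.mem_univ i))
  have hdeg : ∀ j : Fin e × ℕ, (q ^ j.2 * X ^ (j.1 : ℕ)).natDegree = j.2 * e + j.1 := by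
    intro j
    rw [natDegree_mul (pow_ne_zero _ hq0) (pow_ne_zero _ X_ne_zero), natDegree_pow,
      natDegree_X_pow, he]
  rw [divQNorm_phiQ_eq q c L hL, divQNorm_tri w _ (fun j : Fin e × ℕ => q ^ j.2 * X ^ (j.1 : ℕ))
    (fun j _ n => divQNorm_mul w (divQNorm_pow w hqA _) (divQNorm_X_pow w _) n)
    (fun j _ => by
      rw [leadingCoeff_mul, leadingCoeff_pow, leadingCoeff_X_pow, mul_one, map_pow, hql, one_pow])
    (fun j _ j' _ h => by
      rw [hdeg, hdeg] at h
      have h1 : (j.1 : ℕ) < e := j.1.2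
      have h2 : (j'.1 : ℕ) < e := j'.1.2
      have h3 : (j.2 * e + j.1) % e = (j'.2 * e + j'.1) % e := by rw [h]
      rw [Nat.mul_add_mod_self_right, Nat.mul_add_mod_self_right, Nat.mod_eq_of_lt h1,
        Nat.mod_eq_of_lt h2] at h3
      have h4 : j.2 * e = j'.2 * e := by omega
      have h5 : j.2 = j'.2 := Nat.eq_of_mul_eq_mul_right hq h4
      exact Prod.ext (Fin.ext h3) h5)
    (fun j => (c j.1).coeff j.2) γ]
  constructor
  · intro h i n
    by_cases hn : n < L
    · exact h (i, n) (Finset.mem_product.2 ⟨Finset.mem_univ _, Finset.mem_range.2 hn⟩)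
    · rw [coeff_eq_zero_of_natDegree_lt (lt_of_lt_of_le (hL i) (not_lt.1 hn)), map_zero]
      exact zero_le
  · intro h j _
    exact h _ _

theorem phiQ_norm (w : Valuation K Γ₀) (q : K[X]) (hq : 0 < q.natDegree)
    (hqA : ∀ i, w (q.coeff i) ≤ 1) (hql : w q.leadingCoeff = 1) (c : Fin q.natDegree → K[X])
    (γ : Γ₀) : (∀ n, w ((phiQ q c).coeff n) ≤ γ) ↔ ∀ i n, w ((c i).coeff n) ≤ γ :=
  divQNorm_aux w q rfl hq hqA hql c γ

end Fermat.Agent.S19.R
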