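import Fermat.Agent.S19.R.DivQ
import Fermat.Agent.S19.R.DivQNorm

/-!
# S19 / R / ChartH : the charts h(x) and 1/h(x)
Black boxes: `phiQ_surjective`, `exists_comp_dvd`, `phiQ_norm` (with `w := vK v`).  `H := aeval x q`, `e := q.natDegree`, `(d, β)` the ON spanning family
of the chart `x`.  `aeval H c = aeval x (c.comp q)` (`Polynomial.aeval_comp`).
GAUSS for `H`: `v (aeval H c) ≤ γ ↔ ∀ n, vK ((c.comp q).coeff n) ≤ γ` (Gauss for `x`) `↔ ∀ n, vK (c.coeff n) ≤ γ` (`phiQ_norm` with the family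
`c 0 := c`, `c i := 0` for `i ≠ 0`; `⟨0, hq⟩ : Fin e`).
NEW FAMILY: `β' : Fin (e * d) → F`, `β' (finProdFinEquiv (i, j)) := x ^ i * β j`.  For `P : Fin (e * d) → K[X]`:
`comb K H P β' = comb K x (fun j => phiQ q (fun i => P (finProdFinEquiv (i, j)))) β` (`Fintype.sum_equiv`, `Fintype.sum_prod_type`, `map_sum`, `aeval_comp`).
ON: `v (comb ..) ≤ γ ↔ ∀ j, v (aeval x (phiQ ..)) ≤ γ ↔ ∀ j n, vK (coeff) ≤ γ ↔ ∀ j i n, vK ((P (i,j)).coeff n) ≤ γ ↔ ∀ (i,j), v (aeval H (P (i,j))) ≤ γ`.
SPANS: `y : F`, `aeval x q₁ * y = comb K x p β`, `q₁ ≠ 0`; `exists_comp_dvd` : `c.comp q = q₁ * g`, `c ≠ 0`; `aeval H c * y = comb K x (g * p_j) β`; write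
`g * p_j = phiQ q (c_j)` (`phiQ_surjective`) and use the identity above.
-/

set_option autoImplicit false

open AlgebraicCurve Polynomial

noncomputable section

namespace Fermat.Agent.S19.R

open Fermat.Agent.GAL.KL Fermat.Agent.GAL.KLC Fermat.Agent.GAL.KLB Fermat.Agent.GAL
open Fermat.Agent.S24.FF Fermat.Agent.S27

variable {K F k Γ₀ : Type*} [Field K] [Field F] [Algebra K F] [Field k]
  [LinearOrderedCommGroupWithZero Γ₀] {v : Valuation F Γ₀} {ρ : v.integer →+* LaurentSeries k}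

variable [IsAlgClosed K] [CharZero K]

omit [IsAlgClosed K] [CharZero K] in
theorem Chart.inv {t : F} (hC : Chart K v t) : Chart K v t⁻¹ := by
  obtain ⟨d, β, h1, h2⟩ := hC.on
  exact ⟨hC.gauss.inv, d, β, h1.inv hC.gauss, h2.inv hC.gauss.ne_zero⟩

omit [IsAlgClosed K] [CharZero K] in
/-- combinations over `K[h(x)]` of the family `x ^ i * β s` are combinations over `K[x]` of `β`. -/
theorem chartH_comb (x : F) (q : K[X]) {e d : ℕ} (β : Fin d → F) (P : Fin (e * d) → K[X]) :
    comb K (aeval x q) P (fun j => x ^ (j.divNat : ℕ) * β j.modNat) =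
      comb K x (fun s => phiQ q (fun i => P (finProdFinEquiv (i, s)))) β := by
  unfold comb phiQ
  rw [← Equiv.sum_comp finProdFinEquiv, Fintype.sum_prod_type, Finset.sum_comm]
  refine Finset.sum_congr rfl fun s _ => ?_
  rw [map_sum, Finset.sum_mul]
  refine Finset.sum_congr rfl fun i _ => ?_
  have h1 : (finProdFinEquiv (i, s)).divNat = i :=
    congrArg Prod.fst (finProdFinEquiv.symm_apply_apply (i, s))
  have h2 : (finProdFinEquiv (i, s)).modNat = s :=
    congrArg Prod.snd (finProdFinEquiv.symm_apply_apply (i, s))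
  beta_reduce
  rw [h1, h2, map_mul, aeval_comp, map_pow, aeval_X]
  ring

omit [IsAlgClosed K] [CharZero K] in
/-- `v` is the Gauss norm on `K[h(x)]`. -/
theorem chartH_gauss {x : F} (hx : Gauss K v x) (q : K[X]) (hq : 0 < q.natDegree)
    (hqA : ∀ i, vK v (q.coeff i) ≤ 1) (hql : vK v q.leadingCoeff = 1) :
    Gauss K v (aeval x q) := by
  classical
  intro c γ
  have h1 : phiQ q (Pi.single (⟨0, hq⟩ : Fin q.natDegree) c) = c.comp q := by
    rw [phiQ, Finset.sum_eq_single (⟨0, hq⟩ : Fin q.natDegree)]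
    · rw [Pi.single_eq_same, pow_zero, mul_one]
    · intro b _ hb
      rw [Pi.single_eq_of_ne hb, zero_comp, zero_mul]
    · intro h
      exact absurd (Finset.mem_univ _) h
  have h2 := phiQ_norm (vK v) q hq hqA hql (Pi.single (⟨0, hq⟩ : Fin q.natDegree) c) γ
  rw [h1] at h2
  rw [← aeval_comp, hx (c.comp q) γ]
  refine h2.trans ⟨fun h n => ?_, fun h i n => ?_⟩
  · have := h ⟨0, hq⟩ n
    rwa [Pi.single_eq_same] at this
  · by_cases hi : i = ⟨0, hq⟩
    · subst hi
      rw [Pi.single_eq_same]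
      exact h n
    · rw [Pi.single_eq_of_ne hi, coeff_zero, map_zero]
      exact zero_le

theorem chart_aeval {x : F} (hx : Chart K v x) (q : K[X]) (hq : 0 < q.natDegree)
    (hqA : ∀ i, vK v (q.coeff i) ≤ 1) (hql : vK v q.leadingCoeff = 1) :
    Chart K v (aeval x q) := by
  obtain ⟨d, β, hON, hSp⟩ := hx.on
  have hG := chartH_gauss hx.gauss q hq hqA hql
  refine ⟨hG, q.natDegree * d, fun j => x ^ (j.divNat : ℕ) * β j.modNat, ?_, ?_⟩
  · intro P γ
    rw [chartH_comb, hON]
    constructor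
    · intro h j
      have h1 := (hx.gauss _ γ).1 (h j.modNat)
      have h2 := (phiQ_norm (vK v) q hq hqA hql _ γ).1 h1 j.divNat
      have h3 : finProdFinEquiv (j.divNat, j.modNat) = j := finProdFinEquiv.apply_symm_apply j
      rw [h3] at h2
      exact (hG (P j) γ).2 h2
    · intro h s
      rw [hx.gauss _ γ]
      exact (phiQ_norm (vK v) q hq hqA hql _ γ).2 fun i => (hG _ γ).1 (h _)
  · intro y
    obtain ⟨q₁, p, hq₁, hy⟩ := hSp y
    obtain ⟨c, hc, g, hg⟩ := exists_comp_dvd q hq q₁ hq₁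
    choose Cs hCs using fun s => phiQ_surjective q hq (g * p s)
    refine ⟨c, fun j => Cs j.modNat j.divNat, hc, ?_⟩
    rw [chartH_comb, ← aeval_comp, hg, map_mul, mul_comm (aeval x q₁), mul_assoc, hy]
    unfold comb
    rw [Finset.mul_sum]
    refine Finset.sum_congr rfl fun s _ => ?_
    have h1 : (fun i => Cs (finProdFinEquiv (i, s)).modNat (finProdFinEquiv (i, s)).divNat)
        = Cs s := by
      funext i
      have h1 : (finProdFinEquiv (i, s)).divNat = i :=
        congrArg Prod.fst (finProdFinEquiv.symm_apply_apply (i, s))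
      have h2 : (finProdFinEquiv (i, s)).modNat = s :=
        congrArg Prod.snd (finProdFinEquiv.symm_apply_apply (i, s))
      rw [h1, h2]
    beta_reduce
    rw [h1, ← hCs s, map_mul, mul_assoc]

end Fermat.Agent.S19.R
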