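import Mathlib
import Fermat.Agent.GAL.KL.Defs

/-!
# S19 / R / DedCrit : a criterion for a subalgebra of a field to be a Dedekind domain (Mathlib + KL/Defs only)
PURE MATHLIB + the definition `KL.IsInt k ξ φ := ((aeval ξ : k[X] →ₐ[k] L) : k[X] →+* L).IsIntegralElem φ`
(adapt the header: only `open Polynomial Fermat.Agent.GAL.KL`).
`letI : Algebra k[X] R := (aeval (⟨ξ, hξR⟩ : R) : k[X] →ₐ[k] R).toRingHom.toAlgebra`.
* `Module.Finite k[X] R` from `hfg` (span of the `⟨ε i, _⟩`) ⇒ `IsNoetherianRing R` (`isNoetherian_of_isNoetherianRing_of_finite`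
  + `isNoetherianRing_of_...`/`IsNoetherianRing.of_finite k[X] R`).
* `algebraMap k[X] R` is injective (`hξ`), `Algebra.IsIntegral k[X] R` (finite, or `hint`).
  `Ring.DimensionLEOne R`: a nonzero prime `P` of `R`: `P.comap (algebraMap k[X] R) ≠ ⊥`
  (`Ideal.comap_ne_bot_of_integral_mem` / `Ideal.IsIntegralClosure.comap_ne_bot`-type lemma for integral extensions of
  domains), it is prime hence maximal (`k[X]` is a PID: `IsPrime.isMaximal`/`Ring.DimensionLEOne.maximalOfPrime`), so `P` is maximal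
  (`Ideal.isMaximal_of_isIntegral_of_isMaximal_comap`).
* `IsIntegrallyClosed R`: `isIntegrallyClosed_iff (FractionRing R)`; `x = a / b` (`IsFractionRing.div_surjective`); the map
  `j : FractionRing R →+* L := IsFractionRing.lift (injective subtype)`; `j x = a / b` is integral over `R`, hence over
  `k[X]` (`isIntegral_trans`), i.e. `IsInt k ξ (a / b)`; `hic` gives `a / b ∈ R`; injectivity of `j` concludes.
-/

set_option autoImplicit false

open Polynomial Fermat.Agent.GAL.KL

noncomputable section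

namespace Fermat.Agent.S19.R

theorem isDedekindDomain_of {k L : Type*} [Field k] [Field L] [Algebra k L] (ξ : L)
    (hξ : Transcendental k ξ) (R : Subalgebra k L) (hξR : ξ ∈ R) (hint : ∀ φ ∈ R, IsInt k ξ φ)
    (hfg : ∃ (d : ℕ) (ε : Fin d → L), (∀ i, ε i ∈ R) ∧
      ∀ φ ∈ R, ∃ p : Fin d → k[X], φ = ∑ i, aeval ξ (p i) * ε i)
    (hic : ∀ a ∈ R, ∀ b ∈ R, b ≠ 0 → IsInt k ξ (a / b) → a / b ∈ R) : IsDedekindDomain R := by
  classical
  letI algR : Algebra k[X] R := (aeval (⟨ξ, hξR⟩ : R) : k[X] →ₐ[k] R).toRingHom.toAlgebra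
  letI algL : Algebra k[X] L := (aeval ξ : k[X] →ₐ[k] L).toRingHom.toAlgebra
  have hmapR : ∀ p : k[X], algebraMap k[X] R p = aeval (⟨ξ, hξR⟩ : R) p := fun _ => rfl
  have hmapL : ∀ p : k[X], algebraMap k[X] L p = aeval ξ p := fun _ => rfl
  have hcoe : ∀ p : k[X], ((aeval (⟨ξ, hξR⟩ : R) p : R) : L) = aeval ξ p := by
    intro p
    have := aeval_algHom_apply R.val (⟨ξ, hξR⟩ : R) p
    exact this.symm
  haveI tower : IsScalarTower k[X] R L := IsScalarTower.of_algebraMap_eq fun p => by
    rw [hmapL, hmapR]; exact (hcoe p).symm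
  have hinj : Function.Injective (algebraMap k[X] R) := by
    intro p q hpq
    have h1 : aeval ξ p = aeval ξ q := by
      rw [← hcoe, ← hcoe, ← hmapR, ← hmapR, hpq]
    exact (transcendental_iff_injective.1 hξ) h1
  haveI hfin : Module.Finite k[X] R := by
    obtain ⟨d, ε, hε, hsp⟩ := hfg
    refine ⟨⟨Finset.univ.image fun i => (⟨ε i, hε i⟩ : R), ?_⟩⟩
    rw [eq_top_iff]
    intro φ _
    obtain ⟨p, hp⟩ := hsp φ φ.2
    have h1 : φ = ∑ i, p i • (⟨ε i, hε i⟩ : R) := by
      apply Subtype.ext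
      rw [hp, AddSubmonoidClass.coe_finsetSum]
      refine Finset.sum_congr rfl fun i _ => ?_
      rw [Algebra.smul_def, hmapR]
      change _ = ((aeval (⟨ξ, hξR⟩ : R) (p i) : R) : L) * ε i
      rw [hcoe]
    rw [h1]
    refine Submodule.sum_mem _ fun i _ => Submodule.smul_mem _ _ (Submodule.subset_span ?_)
    simp
  haveI hintR : Algebra.IsIntegral k[X] R := Algebra.IsIntegral.of_finite k[X] R
  haveI hnoeth : IsNoetherianRing R := IsNoetherianRing.of_finite k[X] R
  haveI hdim : Ring.DimensionLEOne R := by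
    refine ⟨fun {P} hP0 hP => ?_⟩
    have hc0 : P.comap (algebraMap k[X] R) ≠ ⊥ := by
      intro h
      exact hP0 (Ideal.eq_bot_of_comap_eq_bot h)
    haveI hcp : (P.comap (algebraMap k[X] R)).IsPrime := Ideal.comap_isPrime _ _
    haveI hcm : (P.comap (algebraMap k[X] R)).IsMaximal := hcp.isMaximal hc0
    exact Ideal.isMaximal_of_isIntegral_of_isMaximal_comap P hcm
  haveI hclosed : IsIntegrallyClosed R := by
    rw [isIntegrallyClosed_iff (FractionRing R)]
    intro x hx
    obtain ⟨a, b, hb, rfl⟩ := IsFractionRing.div_surjective (A := R) x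
    have hb0 : b ≠ 0 := nonZeroDivisors.ne_zero hb
    have hinjR : Function.Injective (Algebra.ofId R L) := Subtype.val_injective
    let j : FractionRing R →ₐ[R] L := IsFractionRing.liftAlgHom hinjR
    have hj : j (algebraMap R (FractionRing R) a / algebraMap R (FractionRing R) b) =
        (a : L) / (b : L) := by
      rw [map_div₀, AlgHom.commutes, AlgHom.commutes]; rfl
    have h1 : IsIntegral R ((a : L) / (b : L)) := by
      rw [← hj]; exact hx.map j
    have h2 : IsIntegral k[X] ((a : L) / (b : L)) := isIntegral_trans _ h1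
    have h3 : (a : L) / (b : L) ∈ R :=
      hic a a.2 b b.2 (fun h => hb0 (Subtype.ext h)) h2
    refine ⟨⟨_, h3⟩, ?_⟩
    apply j.toRingHom.injective
    change j _ = j _
    rw [hj, AlgHom.commutes]; rfl
  exact { }

end Fermat.Agent.S19.R
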