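import Fermat.Agent.S19.R.BbBasic
import Fermat.Agent.S19.R.DedCrit

/-!
# S19 / R / Ded : the reduced chart ring is a Dedekind domain
(assembly, done)
-/

set_option autoImplicit false

open AlgebraicCurve Polynomial

noncomputable section

namespace Fermat.Agent.S19.R

open Fermat.Agent.GAL.KL Fermat.Agent.GAL.KLC Fermat.Agent.GAL.KLB Fermat.Agent.GAL
open Fermat.Agent.S24.FF Fermat.Agent.S27

variable {K F k Γ₀ : Type*} [Field K] [Field F] [Algebra K F] [Field k]
  [LinearOrderedCommGroupWithZero Γ₀] {v : Valuation F Γ₀} {ρ : v.integer →+* LaurentSeries k}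

variable [IsAlgClosed K] [CharZero K]

theorem isDedekindDomain_Bb (hρ : IsRed K v ρ) (t : v.integer) (hC : Chart K v (t : F))
    (hL : Lift K ρ t) : IsDedekindDomain (Bb hρ (ρ t)) :=
  isDedekindDomain_of (ρ t) (transcendental_rho hρ t hC) (Bb hρ (ρ t))
    (rho_mem_Bb hρ t hC (tB K (t : F)) t.2) (fun _ h => h.1) (Bb_fg hρ t hC hL)
    (fun a ha b hb hb0 h => Bb_div_mem hρ (ρ t) a b ha hb hb0 h)

end Fermat.Agent.S19.R
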