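import Mathlib

/-!
# S19 / R / DedLemma : a lemma on Dedekind domains (Mathlib only)
PURE MATHLIB (delete the unused opens/variables of the header if they do not compile with `import Mathlib` only).
`I := span {b} ≠ ⊥`.  Write `I = m ^ a * J` with `¬ m ∣ J` (ideals of a Dedekind domain form a UFM; `m` is prime:
`Ideal.prime_of_isPrime hm`; `exists_eq_pow_mul_and_not_dvd` / `WfDvdMonoid.max_power_factor`), i.e. `¬ J ≤ m`
(`Ideal.dvd_iff_le`).  `m` maximal ⇒ `J ⊔ m = ⊤` ⇒ `J ⊔ m ^ 2 = ⊤` (`Ideal.sup_pow_eq_top` / `IsCoprime.pow_right`).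
`π ∈ m \ m ^ 2` (`m ^ 2 ≠ m`: else `m = ⊤` or `⊥` by cancellation, e.g. `Ideal.pow_succ_lt_pow`/`Ideal.pow_right_strictAnti`;
`SetLike.exists_of_lt`).  Take `x ∈ J`, `y ∈ m ^ 2`, `x + y = 1` and `φ := π * x + y`: `φ - π = -π y + y ∈ m ^ 2`,
`φ - 1 = (π - 1) x ∈ J`.  So `φ ∈ m`, `φ ∉ m ^ 2` (in particular `φ ≠ 0`).
LAST CLAUSE: `n` prime, `b ∈ n` ⇒ `m ^ a * J ≤ n` ⇒ `m ≤ n` (then `n = m` by maximality, `n ≠ ⊤`) or `J ≤ n`; in the second
case `φ - 1 ∈ n` and `φ ∈ n` give `1 ∈ n`, contradiction.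
MIDDLE CLAUSE: `span {φ} = m * J'` (`m ∣ span {φ}` as `φ ∈ m`), `¬ J' ≤ m` (else `span {φ} ≤ m ^ 2`); pick `p ∈ J' \ m`; for
`z ∈ m`: `p * z ∈ J' * m = span {φ}` (`Ideal.mem_span_singleton'`).
-/

set_option autoImplicit false


noncomputable section

namespace Fermat.Agent.S19.R

theorem ded_lemma {R : Type*} [CommRing R] [IsDedekindDomain R] (m : Ideal R) [m.IsMaximal]
    (hm : m ≠ ⊥) (b : R) (hb : b ≠ 0) :
    ∃ φ ∈ m, φ ≠ 0 ∧ (∀ z ∈ m, ∃ p z'' : R, p ∉ m ∧ p * z = φ * z'') ∧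
      ∀ n : Ideal R, n.IsPrime → b ∈ n → φ ∈ n → n = m := by
  classical
  have hmax : m.IsMaximal := inferInstance
  have hmp : Prime m := Ideal.prime_of_isPrime hm hmax.isPrime
  have hI : (Ideal.span {b} : Ideal R) ≠ 0 := by
    rw [Ideal.zero_eq_bot, Ne, Ideal.span_singleton_eq_bot]
    exact hb
  obtain ⟨a, J, hJ, hIJ⟩ := WfDvdMonoid.max_power_factor hI hmp.irreducible
  have hJm : ¬ J ≤ m := fun h => hJ (Ideal.dvd_iff_le.mpr h)
  have hsup : J ⊔ m = ⊤ := by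
    have h1 : m < J ⊔ m := lt_of_le_of_ne le_sup_right (fun h => hJm (h ▸ le_sup_left))
    exact hmax.out.2 _ h1
  have hsup2 : J ⊔ m ^ 2 = ⊤ := Ideal.sup_pow_eq_top hsup
  have hlt : m ^ 2 < m := by
    have := Ideal.pow_succ_lt_pow hm 1
    simpa using this
  obtain ⟨π, hπm, hπ2⟩ := SetLike.exists_of_lt hlt
  obtain ⟨x, hx, y, hy, hxy⟩ := Submodule.mem_sup.mp ((Ideal.eq_top_iff_one _).mp hsup2)
  have hym : y ∈ m := hlt.le hy
  set φ : R := π * x + y with hφ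
  have hφm : φ ∈ m := add_mem (Ideal.mul_mem_right _ _ hπm) hym
  have hφ2 : φ ∉ m ^ 2 := by
    intro h
    apply hπ2
    have h1 : π = φ + (π * y - y) := by
      have : x = 1 - y := by rw [← hxy]; ring
      rw [hφ, this]; ring
    rw [h1]
    exact add_mem h (sub_mem (Ideal.mul_mem_left _ _ hy) hy)
  have hφ1 : φ - 1 ∈ J := by
    have h1 : φ - 1 = (π - 1) * x := by
      have : y = 1 - x := by rw [← hxy]; ring
      rw [hφ, this]; ring
    rw [h1]
    exact Ideal.mul_mem_left _ _ hx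
  have hφ0 : φ ≠ 0 := fun h => hφ2 (h ▸ zero_mem _)
  refine ⟨φ, hφm, hφ0, ?_, ?_⟩
  · -- middle clause
    have hdvd : m ∣ Ideal.span {φ} := by
      rw [Ideal.dvd_span_singleton]
      exact hφm
    obtain ⟨J', hJ'⟩ := hdvd
    have hJ'm : ¬ J' ≤ m := by
      intro h
      apply hφ2
      have h1 : Ideal.span {φ} ≤ m ^ 2 := by
        rw [hJ', pow_two]
        exact Ideal.mul_mono_right h
      exact h1 (Ideal.mem_span_singleton_self φ)
    obtain ⟨p, hpJ, hpm⟩ := SetLike.not_le_iff_exists.mp hJ'm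
    intro z hz
    have h1 : p * z ∈ Ideal.span {φ} := by
      rw [hJ', mul_comm p z]
      exact Ideal.mul_mem_mul hz hpJ
    obtain ⟨z'', hz''⟩ := Ideal.mem_span_singleton'.mp h1
    exact ⟨p, z'', hpm, by rw [← hz'', mul_comm]⟩
  · intro n hn hbn hφn
    have h1 : m ^ a * J ≤ n := by
      rw [← hIJ, Ideal.span_singleton_le_iff_mem]
      exact hbn
    rcases (Ideal.IsPrime.mul_le hn).mp h1 with h2 | h2
    · have h3 : m ≤ n := Ideal.IsPrime.le_of_pow_le (hP := hn) h2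
      exact (hmax.eq_of_le hn.ne_top h3).symm
    · exfalso
      apply hn.ne_top
      rw [Ideal.eq_top_iff_one]
      have h4 : (1 : R) = φ - (φ - 1) := by ring
      rw [h4]
      exact sub_mem hφn (h2 hφ1)

end Fermat.Agent.S19.R
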