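import Fermat.Agent.S19.R.Defs

/-!
# S19 / R : two more internal definitions of the block (no sorry; helper40).

* `NearSet v s S y` : `s` is regular at the place `y` and `s(y)` is congruent to an element of the SET `S`
                      (`NearS` of `Defs.lean` with a `Set` instead of a `Finset`: no `DecidableEq K` needed)
* `phiQ q c`        : `∑_{i<e} c_i(q) X^i`
-/

set_option autoImplicit false

open AlgebraicCurve Polynomial

noncomputable section

namespace Fermat.Agent.S19.R

open Fermat.Agent.S27 (val)

variable {K F Γ₀ : Type*} [Field K] [Field F] [Algebra K F] [LinearOrderedCommGroupWithZero Γ₀]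

/-- the place `y` lies in the residue disc (for the coordinate `s`) of one of the constants in `S`. -/
def NearSet (v : Valuation F Γ₀) (s : F) (S : Set K) (y : Place K F) : Prop :=
  0 ≤ y.ord s ∧ ∃ a ∈ S, vK v (val y s - a) < 1

/-- `∑_{i<e} c_i(q) X^i`. -/
def phiQ (q : K[X]) {e : ℕ} (c : Fin e → K[X]) : K[X] := ∑ i : Fin e, (c i).comp q * X ^ (i : ℕ)

end Fermat.Agent.S19.R
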