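import Fermat.Agent.S19.R.Pt

/-!
# S19 / R / Der : the derivation at a place
`π : F` with `P.ord π = 1` (`FF.riemann_exists_ord_eq` or `IsDiscreteValuationRing.exists_irreducible` + `Place.ord_coe_irreducible`).
`δ z := val P ((z - algebraMap (val P z)) / π)`.  The argument is regular at `P` (`S27.val_spec`: the numerator is `0` or has
`ord ≥ 1`).  Additivity / homogeneity: `S27.val_add`, `val_smul`, `val_mul`.  Leibniz:
`z z' - z(P) z'(P) = z (z' - z'(P)) + (z - z(P)) z'(P)`, divide by `π`, apply `val_add`, `val_mul`.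
`2 ≤ ord z` ⇒ `val P z = 0` and `ord (z / π) ≥ 1` ⇒ `δ z = 0` (`val_eq_zero_of_ord_pos`).  `ord z = 1` ⇒ `val P z = 0`,
`ord (z / π) = 0` ⇒ `δ z ≠ 0` (`val_ne_zero_iff`).
-/

set_option autoImplicit false

open AlgebraicCurve Polynomial

noncomputable section

namespace Fermat.Agent.S19.R

open Fermat.Agent.GAL.KL Fermat.Agent.GAL.KLC Fermat.Agent.GAL.KLB Fermat.Agent.GAL
open Fermat.Agent.S24.FF Fermat.Agent.S27

variable {K F k Γ₀ : Type*} [Field K] [Field F] [Algebra K F] [Field k]
  [LinearOrderedCommGroupWithZero Γ₀] {v : Valuation F Γ₀} {ρ : v.integer →+* LaurentSeries k}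

variable [IsAlgClosed K] [CharZero K] [IsFF1 K F]

omit [IsAlgClosed K] [CharZero K] [IsFF1 K F] in
theorem der_ord_div (P : Place K F) {π : F} (hπ : P.ord π = 1) {n : F} (hn : n ≠ 0) :
    P.ord (n / π) = P.ord n - 1 := by
  have hπ0 : π ≠ 0 := ne_zero_of_ord_ne_zero P (by rw [hπ]; exact one_ne_zero)
  rw [div_eq_mul_inv, P.ord_mul hn (inv_ne_zero hπ0), P.ord_inv, hπ]
  ring

omit [IsAlgClosed K] [CharZero K] [IsFF1 K F] in
theorem der_ord_div_nonneg (P : Place K F) {π : F} (hπ : P.ord π = 1) {n : F}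
    (hn : n = 0 ∨ 0 < P.ord n) : 0 ≤ P.ord (n / π) := by
  rcases hn with rfl | hn
  · rw [zero_div, P.ord_zero]
  · rw [der_ord_div P hπ (ne_zero_of_ord_ne_zero P hn.ne')]
    omega

omit [CharZero K] in
/-- the difference quotient is regular. -/
theorem der_reg (P : Place K F) {π : F} (hπ : P.ord π = 1) {z : F} (hz : 0 ≤ P.ord z) :
    0 ≤ P.ord ((z - algebraMap K F (val P z)) / π) :=
  der_ord_div_nonneg P hπ (val_spec' P hz)

/-- the derivation at a place. -/
theorem exists_der {t : F} (P : Place K F) (hP : 0 ≤ P.ord t) :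
    ∃ δ : BBa K t →ₗ[K] K, (∀ z z', δ (z * z') = evB P hP z * δ z' + δ z * evB P hP z') ∧
      (∀ z : BBa K t, 2 ≤ P.ord (z : F) → δ z = 0) ∧ ∀ z : BBa K t, P.ord (z : F) = 1 → δ z ≠ 0 := by
  obtain ⟨π, hπ⟩ := exists_ord_eq_one P
  have hπ0 : π ≠ 0 := ne_zero_of_ord_ne_zero P (by rw [hπ]; exact one_ne_zero)
  let δ : BBa K t →ₗ[K] K :=
    { toFun := fun z => val P (((z : F) - algebraMap K F (val P (z : F))) / π)
      map_add' := fun z z' => by
        have hz := BBa_le P hP z
        have hz' := BBa_le P hP z'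
        rw [← val_add P (der_reg P hπ hz) (der_reg P hπ hz')]
        congr 1
        rw [Subalgebra.coe_add, val_add P hz hz', map_add]
        ring
      map_smul' := fun c z => by
        have hz := BBa_le P hP z
        rw [RingHom.id_apply, smul_eq_mul, ← val_smul P c (der_reg P hπ hz)]
        congr 1
        rw [Subalgebra.coe_smul, val_smul P c hz, map_mul, Algebra.smul_def, Algebra.smul_def]
        ring }
  have hδ : ∀ z : BBa K t, δ z = val P (((z : F) - algebraMap K F (val P (z : F))) / π) :=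
    fun _ => rfl
  refine ⟨δ, fun z z' => ?_, fun z hz => ?_, fun z hz => ?_⟩
  · have hz := BBa_le P hP z
    have hz' := BBa_le P hP z'
    have e1 := val_mul P hz (der_reg P hπ hz')
    have e2 := val_mul P (der_reg P hπ hz) (ord_algebraMap_nonneg P (val P (z' : F)))
    rw [val_algebraMap] at e2
    rw [hδ, hδ, hδ, evB_apply, evB_apply, ← e1, ← e2,
      ← val_add P (ord_mul_nonneg P hz (der_reg P hπ hz'))
        (ord_mul_nonneg P (der_reg P hπ hz) (ord_algebraMap_nonneg P _))]
    congr 1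
    rw [Subalgebra.coe_mul, val_mul P hz hz', map_mul]
    field_simp
    ring
  · have h0 : val P (z : F) = 0 := val_eq_zero_of_ord_pos P (by omega)
    rw [hδ, h0, map_zero, sub_zero]
    apply val_eq_zero_of_ord_pos
    rw [der_ord_div P hπ (ne_zero_of_ord_ne_zero P (by omega))]
    omega
  · have h0 : val P (z : F) = 0 := val_eq_zero_of_ord_pos P (by omega)
    have hz0 : (z : F) ≠ 0 := ne_zero_of_ord_ne_zero P (by omega)
    rw [hδ, h0, map_zero, sub_zero]
    have h1 : P.ord ((z : F) / π) = 0 := by rw [der_ord_div P hπ hz0]; omega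
    exact (val_ne_zero_iff P (div_ne_zero hz0 hπ0) h1.ge).mpr h1

end Fermat.Agent.S19.R
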