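import Fermat.Agent.S19.R.C1

/-!
# S19 / R / DerBound : a twisted derivation is bounded by its values on finitely many generators
Black box: `C1.lean`.  Let `e_j` be the ON basis of `B_t` (`Chart.exists_basis`), `v (e_j) = 1` (`ON.v_eq_one`),
`v t = 1` (`Gauss.v_t`).  `g :=` the element of the finite family `{tB} ∪ {e_j}` with the largest `vK v (δ ·)`
(`Finset.exists_max_image`), `θ := vK v (δ g)`.
(a) `δ 1 = 0` (`hδ 1 1`), `δ (algebraMap a) = 0`.  (b) `vK (δ (tB ^ n)) ≤ θ` by induction (`hδ`, `h₁`, `h₂`).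
(c) for `p : K[X]` with all coefficients of norm `≤ 1`: `vK (δ (aeval tB p)) ≤ θ` (sum of monomials, `δ` is `K`-linear,
ultrametric inequality `Valuation.map_sum_le`), and `vK (e₁ (aeval tB p)) ≤ 1`.
(d) `z ∈ B_t`, `v z ≤ 1`: `z = ∑ p_j(t) e_j` (`IsBasis`), the `p_j` have coefficients of norm `≤ 1` (ON + Gauss),
`δ z = ∑ (e₁ (p_j(t)) δ (e_j) + δ (p_j(t)) e₂ (e_j))`, `vK (e₂ e_j) ≤ 1` by `pt_le_one`.
-/

set_option autoImplicit false

open AlgebraicCurve Polynomial

noncomputable section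

namespace Fermat.Agent.S19.R

open Fermat.Agent.GAL.KL Fermat.Agent.GAL.KLC Fermat.Agent.GAL.KLB Fermat.Agent.GAL
open Fermat.Agent.S24.FF Fermat.Agent.S27

variable {K F k Γ₀ : Type*} [Field K] [Field F] [Algebra K F] [Field k]
  [LinearOrderedCommGroupWithZero Γ₀] {v : Valuation F Γ₀} {ρ : v.integer →+* LaurentSeries k}

variable [IsAlgClosed K] [CharZero K]

omit [IsAlgClosed K] [CharZero K] in
theorem derBound_one {t : F} (e₁ e₂ : BBa K t →ₐ[K] K)
    (δ : BBa K t →ₗ[K] K) (hδ : ∀ z z', δ (z * z') = e₁ z * δ z' + δ z * e₂ z') : δ 1 = 0 := by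
  have h := hδ 1 1
  rw [mul_one, map_one e₁, map_one e₂, one_mul, mul_one] at h
  exact left_eq_add.mp h

/-- a twisted derivation is bounded on `B_t ∩ O_v` by its value on one element of `B_t ∩ O_v`. -/
theorem exists_der_bound {t : F} (hC : Chart K v t) (e₁ e₂ : BBa K t →ₐ[K] K)
    (δ : BBa K t →ₗ[K] K) (hδ : ∀ z z', δ (z * z') = e₁ z * δ z' + δ z * e₂ z')
    (h₁ : vK v (e₁ (tB K t)) ≤ 1) (h₂ : vK v (e₂ (tB K t)) ≤ 1) :
    ∃ g : BBa K t, v (g : F) ≤ 1 ∧ ∀ z : BBa K t, v (z : F) ≤ 1 → vK v (δ z) ≤ vK v (δ g) := by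
  obtain ⟨d, e, he, hON⟩ := hC.exists_basis
  have hemem : ∀ j, IsInt K t (e j) := fun j =>
    (he.2 (e j)).2 ⟨Pi.single j 1, by rw [comb_single, map_one, one_mul]⟩
  let E : Fin d → BBa K t := fun j => ⟨e j, hemem j⟩
  let fam : Option (Fin d) → BBa K t := fun o => o.elim (tB K t) E
  obtain ⟨i₀, -, hmax⟩ := Finset.exists_max_image (Finset.univ : Finset (Option (Fin d)))
    (fun o => vK v (δ (fam o))) ⟨none, Finset.mem_univ _⟩
  have hfam : ∀ o, v ((fam o : BBa K t) : F) ≤ 1 := by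
    intro o
    cases o with
    | none => exact hC.gauss.v_t.le
    | some j => exact (hON.v_eq_one j).le
  refine ⟨fam i₀, hfam i₀, ?_⟩
  set θ := vK v (δ (fam i₀)) with hθ
  have ht : vK v (δ (tB K t)) ≤ θ := hmax none (Finset.mem_univ _)
  have hE : ∀ j, vK v (δ (E j)) ≤ θ := fun j => hmax (some j) (Finset.mem_univ _)
  -- powers of `t`
  have hpow : ∀ n : ℕ, vK v (δ (tB K t ^ n)) ≤ θ := by
    intro n
    induction n with
    | zero => rw [pow_zero, derBound_one e₁ e₂ δ hδ, map_zero]; exact zero_le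
    | succ n ih =>
      rw [pow_succ, hδ]
      refine (Valuation.map_add _ _ _).trans (max_le ?_ ?_)
      · rw [map_mul, map_pow, map_pow]
        calc vK v (e₁ (tB K t)) ^ n * vK v (δ (tB K t)) ≤ 1 * θ := by
              gcongr
              exact pow_le_one' h₁ n
          _ = θ := one_mul _
      · rw [map_mul]
        calc vK v (δ (tB K t ^ n)) * vK v (e₂ (tB K t)) ≤ θ * 1 := by gcongr
          _ = θ := mul_one _
  -- polynomials with integral coefficients
  have hpoly : ∀ p : K[X], (∀ n, vK v (p.coeff n) ≤ 1) → vK v (δ (aeval (tB K t) p)) ≤ θ := by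
    intro p hp
    rw [Polynomial.aeval_eq_sum_range, map_sum]
    refine Valuation.map_sum_le _ fun n _ => ?_
    rw [map_smul, smul_eq_mul, map_mul]
    calc vK v (p.coeff n) * vK v (δ (tB K t ^ n)) ≤ 1 * θ := by
          gcongr
          · exact hp n
          · exact hpow n
      _ = θ := one_mul _
  intro z hz
  obtain ⟨p, hp⟩ := (he.2 (z : F)).1 z.2
  have hpv : ∀ i, v (aeval t (p i)) ≤ 1 := (hON p 1).1 (hp ▸ hz)
  have hpc : ∀ i n, vK v ((p i).coeff n) ≤ 1 := fun i => (hC.gauss (p i) 1).1 (hpv i)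
  have hcoe : ∀ q : K[X], ((aeval (tB K t) q : BBa K t) : F) = aeval t q := fun q =>
    (Subalgebra.aeval_coe _ _ _).symm
  have hz' : z = ∑ i, aeval (tB K t) (p i) * E i := by
    apply Subtype.ext
    rw [hp, comb]
    have : ((∑ i, aeval (tB K t) (p i) * E i : BBa K t) : F)
        = ∑ i, ((aeval (tB K t) (p i) * E i : BBa K t) : F) := by
      exact map_sum (BBa K t).val _ _
    rw [this]
    refine Finset.sum_congr rfl fun i _ => ?_
    rw [MulMemClass.coe_mul, hcoe]
  rw [hz', map_sum]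
  refine Valuation.map_sum_le _ fun i _ => ?_
  rw [hδ]
  refine (Valuation.map_add _ _ _).trans (max_le ?_ ?_)
  · rw [map_mul]
    have h3 : vK v (e₁ (aeval (tB K t) (p i))) ≤ 1 :=
      pt_le_one hC e₁ h₁ _ (by rw [hcoe]; exact hpv i)
    calc vK v (e₁ (aeval (tB K t) (p i))) * vK v (δ (E i)) ≤ 1 * θ := by
          gcongr
          exact hE i
      _ = θ := one_mul _
  · rw [map_mul]
    have h3 : vK v (e₂ (E i)) ≤ 1 := pt_le_one hC e₂ h₂ _ (hON.v_eq_one i).le
    calc vK v (δ (aeval (tB K t) (p i))) * vK v (e₂ (E i)) ≤ θ * 1 := by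
          gcongr
          exact hpoly _ (hpc i)
      _ = θ := mul_one _

end Fermat.Agent.S19.R
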