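import Fermat.Agent.S19.R.Defs2

/-!
# S19 / R / DivQ : division by q: K[X] is free over K[q] with basis 1, X, .., X^(e-1)
PURE POLYNOMIAL ALGEBRA over a field `K`.  `phiQ q c = ∑ i : Fin e, (c i).comp q * X ^ i`.
`phiQ_surjective`: strong induction on `p.natDegree`: `p = q * p₁ + r`, `r = p % q` (`EuclideanDomain`/`Polynomial.div_add_mod`, `degree_mod_lt`),
`natDegree p₁ < natDegree p` if `p₁ ≠ 0` (as `0 < natDegree q`); `p₁ = phiQ q c'`; `c i := X * c' i + C (r.coeff i)`
(`(X * c' + C a).comp q = q * c'.comp q + C a`; `r = ∑ i : Fin e, C (r.coeff i) * X ^ i` by `Polynomial.as_sum_range'`, `Fin.sum_univ_eq_sum_range`).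
`exists_comp_dvd`: `AdjoinRoot q₁` is finite dimensional over `K` (`AdjoinRoot.powerBasis hq₁`), so `AdjoinRoot.mk q₁ q` is algebraic: `c ≠ 0` with
`aeval (mk q₁ q) c = 0`; `aeval (mk q₁ q) c = mk q₁ (c.comp q)` (`Polynomial.hom_eval₂`/`AdjoinRoot.aeval_eq`-style induction) and `AdjoinRoot.mk_eq_zero`.
-/

set_option autoImplicit false

open AlgebraicCurve Polynomial

noncomputable section

namespace Fermat.Agent.S19.R

open Fermat.Agent.GAL.KL Fermat.Agent.GAL.KLC Fermat.Agent.GAL.KLB Fermat.Agent.GAL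
open Fermat.Agent.S24.FF Fermat.Agent.S27

variable {K F k Γ₀ : Type*} [Field K] [Field F] [Algebra K F] [Field k]
  [LinearOrderedCommGroupWithZero Γ₀] {v : Valuation F Γ₀} {ρ : v.integer →+* LaurentSeries k}

theorem phiQ_surjective (q : K[X]) (hq : 0 < q.natDegree) (p : K[X]) :
    ∃ c : Fin q.natDegree → K[X], p = phiQ q c := by
  induction hn : p.natDegree using Nat.strong_induction_on generalizing p with
  | _ n ih =>
    have hdm : q * (p / q) + p % q = p := EuclideanDomain.div_add_mod p q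
    have hr : (p % q).natDegree < q.natDegree := natDegree_mod_lt p hq.ne'
    have hrsum : p % q = ∑ i : Fin q.natDegree, C ((p % q).coeff i) * X ^ (i : ℕ) := by
      conv_lhs => rw [(p % q).as_sum_range' q.natDegree hr]
      rw [← Fin.sum_univ_eq_sum_range (fun i => monomial i ((p % q).coeff i))]
      exact Finset.sum_congr rfl fun i _ => (C_mul_X_pow_eq_monomial).symm
    obtain ⟨c', hc'⟩ : ∃ c' : Fin q.natDegree → K[X], p / q = phiQ q c' := by
      by_cases h1 : p / q = 0
      · exact ⟨0, by rw [h1]; simp [phiQ]⟩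
      · have hp0 : p ≠ 0 := by
          rintro rfl
          exact h1 EuclideanDomain.zero_div
        have hdeg : (p / q).natDegree < p.natDegree :=
          natDegree_lt_natDegree h1 (degree_div_lt hp0 (natDegree_pos_iff_degree_pos.1 hq))
        exact ih _ (hn ▸ hdeg) _ rfl
    refine ⟨fun i => X * c' i + C ((p % q).coeff i), ?_⟩
    conv_lhs => rw [← hdm, hc', hrsum]
    simp only [phiQ, add_comp, mul_comp, X_comp, C_comp, add_mul, Finset.sum_add_distrib,
      Finset.mul_sum, mul_assoc]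

theorem exists_comp_dvd (q : K[X]) (hq : 0 < q.natDegree) (q₁ : K[X]) (hq₁ : q₁ ≠ 0) :
    ∃ c : K[X], c ≠ 0 ∧ q₁ ∣ c.comp q := by
  have : Module.Finite K (AdjoinRoot q₁) := (AdjoinRoot.powerBasis hq₁).finite
  obtain ⟨c, hc, hc0⟩ := Algebra.IsIntegral.isIntegral (R := K) (AdjoinRoot.mk q₁ q)
  refine ⟨c, hc.ne_zero, ?_⟩
  rw [← AdjoinRoot.mk_eq_zero, comp, hom_eval₂]
  exact hc0

end Fermat.Agent.S19.R
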