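import Mathlib
import Fermat.Agent.GAL.KL.BasicInt
import Fermat.Agent.GAL.KL.Reflect

/-!
# S19 / R / Int1 : integrality over k[1/h(ξ)] versus k[ξ] and k[1/ξ] (pure algebra)
PURE ALGEBRA (adapt the header: only `open Polynomial Fermat.Agent.GAL.KL`).
GENERAL LEMMA (G): `η : L`, `U W : k[X]`, `w := aeval η W ≠ 0`, `u := aeval η U`, `φ` with `IsInt k (u / w) φ`.  Then `∃ n₀, ∀ n ≥ n₀, IsInt k η (φ * w ^ n)`.
Proof: `φ ^ N + ∑_{i<N} a_i(u/w) φ ^ i = 0`, `a_i : k[X]`; `n₀ := max natDegree a_i`; multiply by `w ^ (n N)`: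
`(φ w^n)^N + ∑_{i<N} [a_i(u/w) w^{n (N - i)}] (φ w^n)^i = 0` and `a_i(u/w) w^{n(N-i)} = ∑_l a_il u^l w^{n(N-i)-l} = aeval η (∑_l C a_il * U^l * W^{n(N-i)-l})`
because `l ≤ natDegree a_i ≤ n ≤ n (N - i)`.  (Formally: from the monic `p : k[X][X]` build the monic polynomial with coefficients these polynomials, e.g. via
`Polynomial.scaleRoots`-like construction, or prove integrality through `IsIntegral` of `φ * w^n` over the subring `(aeval η).range` using
`IsIntegral` closure properties: `φ` is integral over `R[1/w]`-type statement: Mathlib `IsIntegral.exists_multiple_integral_of_isLocalization`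
(`R := (aeval η).range`, `M := Submonoid.powers w`, localisation `= R[1/w] ⊆ L`) gives ONE `n`; larger `n` by multiplying with `w ∈ R`.)
APPLY (G) with (a) `η = ξ`, `W = h`, `U = 1`; (b) `η = ξ⁻¹`, `W = h.reflect e` (`e = natDegree h`; `KL.aeval_inv_reflect`/`aeval_reflect`: `aeval ξ⁻¹ (reflect e h) = ξ⁻¹ ^ e * aeval ξ h`),
`U = X ^ e`: `u / w = (aeval ξ h)⁻¹`, `φ * w ^ n = ξ⁻¹ ^ (n e) * (φ * aeval ξ h ^ n)`.  Take the max of the two `n₀`.
-/

set_option autoImplicit false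

open Polynomial Fermat.Agent.GAL.KL

noncomputable section

namespace Fermat.Agent.S19.R

/-- homogenisation: `w ^ m * a (u / w)` is a polynomial in `η` if `deg a ≤ m`. -/
theorem int1_homog {k L : Type*} [Field k] [Field L] [Algebra k L] {η : L} (U W : k[X])
    (hw : aeval η W ≠ 0) (m : ℕ) (a : k[X]) (ha : a.natDegree ≤ m) :
    ∃ A : k[X], aeval η A = aeval η W ^ m * aeval (aeval η U / aeval η W) a := by
  refine ⟨∑ l ∈ Finset.range (m + 1), C (a.coeff l) * U ^ l * W ^ (m - l), ?_⟩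
  rw [aeval_eq_sum_range' (Nat.lt_succ_of_le ha), map_sum, Finset.mul_sum]
  refine Finset.sum_congr rfl fun l hl => ?_
  have hl' : l ≤ m := Nat.lt_succ_iff.mp (Finset.mem_range.mp hl)
  obtain ⟨j, rfl⟩ := Nat.exists_eq_add_of_le hl'
  rw [Nat.add_sub_cancel_left]
  simp only [map_mul, map_pow, aeval_C, Algebra.smul_def]
  rw [div_pow, pow_add]
  field_simp

/-- **General lemma (G).** -/
theorem int1_general {k L : Type*} [Field k] [Field L] [Algebra k L] {η : L} (U W : k[X])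
    (hw : aeval η W ≠ 0) {φ : L} (hφ : IsInt k (aeval η U / aeval η W) φ) :
    ∃ n₀ : ℕ, ∀ n, n₀ ≤ n → IsInt k η (φ * aeval η W ^ n) := by
  obtain ⟨P, hP, hPu⟩ := hφ
  set N := P.natDegree with hN
  refine ⟨(Finset.range N).sup fun i => (P.coeff i).natDegree, fun m hm => ?_⟩
  have hdeg : ∀ i ∈ Finset.range N, (P.coeff i).natDegree ≤ m := fun i hi =>
    le_trans (Finset.le_sup (f := fun i => (P.coeff i).natDegree) hi) hm
  have hA : ∀ i : ℕ, ∃ A : k[X], i ∈ Finset.range N →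
      aeval η A = aeval η W ^ m * aeval (aeval η U / aeval η W) (P.coeff i) := by
    intro i
    by_cases hi : i ∈ Finset.range N
    · obtain ⟨A, hA⟩ := int1_homog U W hw m (P.coeff i) (hdeg i hi)
      exact ⟨A, fun _ => hA⟩
    · exact ⟨0, fun h => absurd h hi⟩
  choose A hA using hA
  refine ⟨X ^ N + ∑ i ∈ Finset.range N,
    C (W ^ (m * (N - i - 1)) * A i) * X ^ i, ?_, ?_⟩
  · apply monic_X_pow_add
    refine lt_of_le_of_lt (degree_sum_le _ _) ?_
    refine (Finset.sup_lt_iff (WithBot.bot_lt_coe N)).mpr ?_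
    intro i hi
    refine lt_of_le_of_lt (degree_C_mul_X_pow_le _ _) ?_
    exact WithBot.coe_lt_coe.mpr (Finset.mem_range.mp hi)
  · rw [eval₂_eq_sum_range, ← hN, Finset.sum_range_succ, hN, hP.coeff_natDegree, ← hN, map_one,
      one_mul] at hPu
    rw [eval₂_add, eval₂_finsetSum, eval₂_X_pow]
    have key : ∀ i ∈ Finset.range N,
        eval₂ ((Polynomial.aeval η : k[X] →ₐ[k] L) : k[X] →+* L) (φ * aeval η W ^ m)
          (C (W ^ (m * (N - i - 1)) * A i) * X ^ i) =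
        aeval η W ^ (m * N) *
          (((Polynomial.aeval (aeval η U / aeval η W) : k[X] →ₐ[k] L) : k[X] →+* L) (P.coeff i)
            * φ ^ i) := by
      intro i hi
      obtain ⟨j, hj⟩ := Nat.exists_eq_add_of_lt (Finset.mem_range.mp hi)
      have h1 : N - i - 1 = j := by omega
      rw [eval₂_mul, eval₂_C, eval₂_X_pow, h1, hj]
      simp only [RingHom.coe_coe, map_mul, map_pow]
      rw [hA i hi]
      ring
    rw [Finset.sum_congr rfl key, ← Finset.mul_sum, mul_pow, ← pow_mul, mul_comm (φ ^ N),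
      ← mul_add, add_comm, hPu, mul_zero]

theorem isInt_mul_pow_of_isInt_inv {k L : Type*} [Field k] [Field L] [Algebra k L] {ξ : L}
    (hξ : ξ ≠ 0) (h : k[X]) (hh : aeval ξ h ≠ 0) {φ : L} (hφ : IsInt k (aeval ξ h)⁻¹ φ) :
    ∃ n₀ : ℕ, ∀ n, n₀ ≤ n → IsInt k ξ (φ * aeval ξ h ^ n) ∧
      IsInt k ξ⁻¹ (ξ⁻¹ ^ (n * h.natDegree) * (φ * aeval ξ h ^ n)) := by
  have hr : aeval ξ⁻¹ (reflect h.natDegree h) = ξ⁻¹ ^ h.natDegree * aeval ξ h :=
    aeval_inv_reflect hξ _ h le_rfl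
  have hξi : ξ⁻¹ ^ h.natDegree ≠ 0 := pow_ne_zero _ (inv_ne_zero hξ)
  obtain ⟨n₁, h₁⟩ := int1_general (η := ξ) (1 : k[X]) h hh (φ := φ)
    (by rw [map_one, one_div]; exact hφ)
  obtain ⟨n₂, h₂⟩ := int1_general (η := ξ⁻¹) (X ^ h.natDegree : k[X]) (reflect h.natDegree h)
    (by rw [hr]; exact mul_ne_zero hξi hh) (φ := φ)
    (by
      have : aeval ξ⁻¹ (X ^ h.natDegree : k[X]) / aeval ξ⁻¹ (reflect h.natDegree h) =
          (aeval ξ h)⁻¹ := by
        rw [hr, map_pow, aeval_X]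
        field_simp
      rw [this]; exact hφ)
  refine ⟨max n₁ n₂, fun n hn => ⟨h₁ n (le_trans (le_max_left _ _) hn), ?_⟩⟩
  have := h₂ n (le_trans (le_max_right _ _) hn)
  rw [hr] at this
  have e : ξ⁻¹ ^ (n * h.natDegree) * (φ * aeval ξ h ^ n) =
      φ * (ξ⁻¹ ^ h.natDegree * aeval ξ h) ^ n := by
    rw [mul_pow, ← pow_mul, mul_comm h.natDegree n]
    ring
  rw [e]
  exact this

end Fermat.Agent.S19.R
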