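import Fermat.Agent.S19.R.BbBasic

/-!
# S19 / R / RedPt : reduction of points
Black boxes: `C1.lean`, `BbBasic.lean`.  Let `B° : Subring (BBa K t) := {z | v z ≤ 1}`.
`r : B° →+* Bb hρ (ρ t)`, `z ↦ ⟨ρ ⟨z, _⟩, rho_mem_Bb ..⟩` is surjective (`exists_lift_Bb`), with kernel `{v z < 1}` (`hρ.ker`).
`g : B° →+* k`, `z ↦ resK hρ ⟨e z, pt_le_one ..⟩` kills `ker r` (`pt_lt_one`, `resK_eq_zero_iff`).
`eb := RingHom.liftOfSurjective r hr ⟨g, _⟩` (`RingHom.liftOfRightInverse_comp_apply`), so `eb (r z) = g z`.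
`k`-algebra hom: a constant `c = resK a` is `r (algebraMap a)` (`rho_toInt'`, `ModularCurve.algebraMap_laurentSeries_eq_single`) and
`g (algebraMap a) = resK a` (`e.commutes`).   `eb φ = 0 ↔ resK (e z) = 0 ↔ vK (e z) < 1` (`resK_eq_zero_iff`).
-/

set_option autoImplicit false

open AlgebraicCurve Polynomial

noncomputable section

namespace Fermat.Agent.S19.R

open Fermat.Agent.GAL.KL Fermat.Agent.GAL.KLC Fermat.Agent.GAL.KLB Fermat.Agent.GAL
open Fermat.Agent.S24.FF Fermat.Agent.S27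

variable {K F k Γ₀ : Type*} [Field K] [Field F] [Algebra K F] [Field k]
  [LinearOrderedCommGroupWithZero Γ₀] {v : Valuation F Γ₀} {ρ : v.integer →+* LaurentSeries k}

variable [IsAlgClosed K] [CharZero K]

theorem exists_redPt (hρ : IsRed K v ρ) (t : v.integer) (hC : Chart K v (t : F)) (hL : Lift K ρ t)
    (e : BBa K (t : F) →ₐ[K] K) (he : vK v (e (tB K (t : F))) ≤ 1) :
    ∃ eb : Bb hρ (ρ t) →ₐ[k] k, ∀ (z : BBa K (t : F)) (hz : v (z : F) ≤ 1) (φ : Bb hρ (ρ t)),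
      ρ ⟨z, hz⟩ = φ → (eb φ = 0 ↔ vK v (e z) < 1) := by
  -- the subring `B° = B_t ∩ O_v`
  let B0 : Subring (BBa K (t : F)) :=
    (v.comap ((BBa K (t : F)).val : BBa K (t : F) →+* F)).integer
  let ι : B0 →+* v.integer :=
    (((BBa K (t : F)).val : BBa K (t : F) →+* F).comp B0.subtype).codRestrict v.integer
      (fun z => z.2)
  let r : B0 →+* Bb hρ (ρ t) :=
    (ρ.comp ι).codRestrict (Bb hρ (ρ t)).toSubring (fun z => rho_mem_Bb hρ t hC z.1 z.2)
  have hr_coe : ∀ (z : BBa K (t : F)) (hz : v (z : F) ≤ 1),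
      ((r ⟨z, hz⟩ : Bb hρ (ρ t)) : LaurentSeries k) = ρ ⟨z, hz⟩ := fun _ _ => rfl
  have hr : Function.Surjective r := by
    intro φ
    obtain ⟨z, hz, h⟩ := exists_lift_Bb hρ t hL φ
    exact ⟨⟨z, hz⟩, Subtype.ext h⟩
  let γ : B0 →+* AK K v :=
    ((e : BBa K (t : F) →+* K).comp B0.subtype).codRestrict (AK K v)
      (fun z => pt_le_one hC e he z.1 z.2)
  let g : B0 →+* k := (resK hρ).comp γ
  have hg0 : ∀ z : B0, g z = 0 ↔ vK v (e z.1) < 1 := fun z => resK_eq_zero_iff hρ (γ z)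
  have hker : RingHom.ker r ≤ RingHom.ker g := by
    intro z hz
    rw [RingHom.mem_ker] at hz ⊢
    rw [hg0]
    apply pt_lt_one hρ hC e he
    have h1 : ρ ⟨z.1, z.2⟩ = 0 := congrArg Subtype.val hz
    exact (hρ.ker _).1 h1
  let eb₀ : Bb hρ (ρ t) →+* k := r.liftOfSurjective hr ⟨g, hker⟩
  have heb : ∀ z : B0, eb₀ (r z) = g z := fun z => RingHom.liftOfSurjective_comp_apply r hr ⟨g, hker⟩ z
  let eb : Bb hρ (ρ t) →ₐ[k] k :=
    { eb₀ with
      commutes' := by
        intro c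
        obtain ⟨a, rfl⟩ := resK_surjective hρ c
        have ha : v ((algebraMap K (BBa K (t : F)) a : BBa K (t : F)) : F) ≤ 1 := a.2
        have h1 : algebraMap k (Bb hρ (ρ t)) (resK hρ a)
            = r ⟨algebraMap K (BBa K (t : F)) a, ha⟩ := by
          apply Subtype.ext
          rw [hr_coe]
          have h2 : ρ ⟨((algebraMap K (BBa K (t : F)) a : BBa K (t : F)) : F), ha⟩
              = HahnSeries.C (resK hρ a) := rho_toInt' hρ a
          rw [h2]
          exact ModularCurve.algebraMap_laurentSeries_eq_single k (resK hρ a)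
        change eb₀ (algebraMap k (Bb hρ (ρ t)) (resK hρ a)) = _
        rw [h1, heb]
        have h3 : γ ⟨algebraMap K (BBa K (t : F)) a, ha⟩ = a := Subtype.ext (e.commutes a)
        change resK hρ (γ ⟨algebraMap K (BBa K (t : F)) a, ha⟩) = _
        rw [h3]
        rfl }
  refine ⟨eb, fun z hz φ hφ => ?_⟩
  have h1 : φ = r ⟨z, hz⟩ := Subtype.ext hφ.symm
  change eb₀ φ = 0 ↔ _
  rw [h1, heb, hg0]

end Fermat.Agent.S19.R
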