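import Fermat.Agent.S19.R.Ded
import Fermat.Agent.S19.R.DedLemma
import Fermat.Agent.S19.R.RedPt

/-!
# S19 / R / LocGen : a local generator of the maximal ideal of a point, avoiding the other bad points
Black boxes: `isDedekindDomain_Bb`, `ded_lemma`, `exists_redPt`, `exists_lift_Bb`, `rho_mem_Bb`, `transcendental_rho`,
`pt_le_one`.  `R := Bb hρ (ρ t)` (`haveI := isDedekindDomain_Bb ..`).  `eb₂` from `exists_redPt e₂`; `m := RingHom.ker eb₂` is maximal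
(`eb₂` is onto `k`: `eb₂ (algebraMap c) = c`; `RingHom.ker_isMaximal_of_surjective`), `m ≠ ⊥` (it contains
`ξ - algebraMap (eb₂ ξ) ≠ 0`, `ξ = ⟨ρ t, _⟩` transcendental).
`B := ∏ a ∈ hSf.toFinset, (tB - algebraMap a) : BBa K t`, `v B = 1` (Gauss: each factor is `aeval t (X - C a)`, coefficients of norm
`≤ 1`, leading coefficient `1`), `b := ⟨ρ ⟨B, _⟩, _⟩ ≠ 0` (`hρ.ker`).  `ded_lemma m hm b hb` gives `φ`.
Lift `φ = ρ f₀` (`exists_lift_Bb`); `eb₂ φ = 0` ⇒ `vK (e₂ f₀) < 1`; `f := f₀ - algebraMap (e₂ f₀)`: `v f ≤ 1`, `ρ f = φ` (`hρ.ker`), `e₂ f = 0`,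
`f ≠ 0` as `φ ≠ 0`.
`hloc`: `e₂ z = 0` ⇒ `ρ z ∈ m` ⇒ `pb * ρ z = φ * zb''`, `pb ∉ m`; lift `pb, zb''` to `p, z''`; `vK (e₂ p) = 1` (`≤ 1` by `pt_le_one`, not `< 1`);
`ρ (p z - f z'') = 0` ⇒ `v (..) < 1`.
LAST CLAUSE: `eb₁` from `exists_redPt e₁`, `n := ker eb₁` prime; `b ∈ n` because `vK (e₁ B) < 1` (one factor `< 1`, the others `≤ 1`);
`φ ∈ n` because `e₁ f = 0`; so `n = m`.  For `z` with `v z ≤ 1`: `z' := z - algebraMap (e₂ z)`, `e₂ z' = 0` ⇒ `ρ z' ∈ m = n` ⇒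
`vK (e₁ z') < 1`, and `e₁ z' = e₁ z - e₂ z`.
-/

set_option autoImplicit false

open AlgebraicCurve Polynomial

noncomputable section

namespace Fermat.Agent.S19.R

open Fermat.Agent.GAL.KL Fermat.Agent.GAL.KLC Fermat.Agent.GAL.KLB Fermat.Agent.GAL
open Fermat.Agent.S24.FF Fermat.Agent.S27

variable {K F k Γ₀ : Type*} [Field K] [Field F] [Algebra K F] [Field k]
  [LinearOrderedCommGroupWithZero Γ₀] {v : Valuation F Γ₀} {ρ : v.integer →+* LaurentSeries k}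

variable [IsAlgClosed K] [CharZero K]

omit [IsAlgClosed K] [CharZero K] in
theorem locgen_v_sub {t : F} (hG : Gauss K v t) (a : K) (ha : vK v a ≤ 1) :
    v (t - algebraMap K F a) = 1 := by
  have hae : aeval t (X - C a : K[X]) = t - algebraMap K F a := by simp
  have hcoeff : ∀ i, v (algebraMap K F ((X - C a : K[X]).coeff i)) ≤ 1 := by
    intro i
    rw [coeff_sub, coeff_X, coeff_C, map_sub]
    refine le_trans (Valuation.map_sub _ _ _) (max_le ?_ ?_)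
    · split_ifs
      · rw [map_one, map_one]
      · rw [map_zero, map_zero]; exact zero_le
    · split_ifs
      · exact ha
      · rw [map_zero, map_zero]; exact zero_le
  refine le_antisymm ?_ ?_
  · rw [← hae]; exact (hG _ 1).2 hcoeff
  · have h := (hG (X - C a : K[X]) (v (t - algebraMap K F a))).1 (by rw [hae]) 1
    rw [coeff_sub, coeff_X_one, coeff_C_succ, sub_zero, map_one, map_one] at h
    exact h

theorem exists_loc_gen (hρ : IsRed K v ρ) (t : v.integer) (hC : Chart K v (t : F)) (hL : Lift K ρ t)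
    (e₂ : BBa K (t : F) →ₐ[K] K) (h₂ : vK v (e₂ (tB K (t : F))) ≤ 1) (S : Set K) (hSf : S.Finite)
    (hS : ∀ a ∈ S, vK v a ≤ 1) :
    ∃ f : BBa K (t : F), v (f : F) ≤ 1 ∧ f ≠ 0 ∧ e₂ f = 0 ∧
      (∀ z : BBa K (t : F), v (z : F) ≤ 1 → e₂ z = 0 → ∃ p z'' : BBa K (t : F), v (p : F) ≤ 1 ∧
        v (z'' : F) ≤ 1 ∧ vK v (e₂ p) = 1 ∧ v ((p * z - f * z'' : BBa K (t : F)) : F) < 1) ∧
      (∀ e₁ : BBa K (t : F) →ₐ[K] K, vK v (e₁ (tB K (t : F))) ≤ 1 → e₁ f = 0 →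
        (∃ a ∈ S, vK v (e₁ (tB K (t : F)) - a) < 1) →
          ∀ z : BBa K (t : F), v (z : F) ≤ 1 → vK v (e₁ z - e₂ z) < 1) := by
  classical
  haveI := isDedekindDomain_Bb hρ t hC hL
  obtain ⟨eb₂, heb₂⟩ := exists_redPt hρ t hC hL e₂ h₂
  set m : Ideal (Bb hρ (ρ t)) := RingHom.ker (eb₂ : Bb hρ (ρ t) →+* k) with hm
  have hmem_m : ∀ x : Bb hρ (ρ t), x ∈ m ↔ eb₂ x = 0 := fun x => by
    rw [hm, RingHom.mem_ker]; rfl
  have hsurj : Function.Surjective (eb₂ : Bb hρ (ρ t) →+* k) :=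
    fun c => ⟨algebraMap k _ c, eb₂.commutes c⟩
  haveI hmax : m.IsMaximal := RingHom.ker_isMaximal_of_surjective _ hsurj
  have hv0 : vK v (0 : K) < 1 := by rw [map_zero]; exact zero_lt_one
  -- `m ≠ ⊥`
  have hmbot : m ≠ ⊥ := by
    intro h
    let ξ : Bb hρ (ρ t) := ⟨ρ t, rho_mem_Bb hρ t hC (tB K (t : F)) t.2⟩
    have h1 : ξ - algebraMap k _ (eb₂ ξ) ∈ m := by
      rw [hmem_m, map_sub, AlgHom.commutes, Algebra.algebraMap_self_apply, sub_self]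
    rw [h, Ideal.mem_bot, sub_eq_zero] at h1
    have h2 : ρ t = algebraMap k (LaurentSeries k) (eb₂ ξ) := congrArg Subtype.val h1
    exact transcendental_rho hρ t hC (h2 ▸ isAlgebraic_algebraMap _)
  -- the product `B`
  let B : BBa K (t : F) := ∏ a ∈ hSf.toFinset, (tB K (t : F) - algebraMap K _ a)
  have hvB : v (B : F) = 1 := by
    have h1 : ((B : BBa K (t : F)) : F) = ∏ a ∈ hSf.toFinset, ((t : F) - algebraMap K F a) := by
      simp only [B]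
      rw [← Subalgebra.coe_val, map_prod]
      rfl
    rw [h1, map_prod]
    exact Finset.prod_eq_one fun a ha =>
      locgen_v_sub hC.gauss a (hS a (hSf.mem_toFinset.1 ha))
  let b : Bb hρ (ρ t) := ⟨ρ ⟨B, hvB.le⟩, rho_mem_Bb hρ t hC B hvB.le⟩
  have hb : b ≠ 0 := by
    intro h
    have h1 : ρ ⟨B, hvB.le⟩ = 0 := congrArg Subtype.val h
    have h2 := (hρ.ker _).1 h1
    rw [hvB] at h2
    exact lt_irrefl _ h2
  obtain ⟨φ, hφm, hφ0, hloc, huniq⟩ := ded_lemma m hmbot b hb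
  obtain ⟨f₀, hf₀, hρf₀⟩ := exists_lift_Bb hρ t hL φ
  have h1 : vK v (e₂ f₀) < 1 := (heb₂ f₀ hf₀ φ hρf₀).1 ((hmem_m φ).1 hφm)
  -- subtracting the value at `e₂`
  have hsubv : ∀ (z : BBa K (t : F)), v (z : F) ≤ 1 →
      v ((z - algebraMap K _ (e₂ z) : BBa K (t : F)) : F) ≤ 1 := by
    intro z hz
    refine le_trans (Valuation.map_sub _ _ _) (max_le hz ?_)
    exact pt_le_one hC e₂ h₂ z hz
  have hsub0 : ∀ (z : BBa K (t : F)), e₂ (z - algebraMap K _ (e₂ z)) = 0 := by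
    intro z
    rw [map_sub, AlgHom.commutes, Algebra.algebraMap_self_apply, sub_self]
  set f : BBa K (t : F) := f₀ - algebraMap K _ (e₂ f₀) with hf
  have hvf : v (f : F) ≤ 1 := hsubv f₀ hf₀
  have hρf : ρ ⟨f, hvf⟩ = φ := by
    have hc : v (algebraMap K F (e₂ f₀)) ≤ 1 := h1.le
    have h2 : (⟨f, hvf⟩ : v.integer) = ⟨f₀, hf₀⟩ - ⟨algebraMap K F (e₂ f₀), hc⟩ :=
      Subtype.ext rfl
    rw [h2, map_sub, hρf₀, (hρ.ker ⟨algebraMap K F (e₂ f₀), hc⟩).2 h1, sub_zero]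
  have hf0 : f ≠ 0 := by
    intro h
    apply hφ0
    apply Subtype.ext
    rw [← hρf]
    have h3 : (f : F) = 0 := congrArg Subtype.val h
    have h2 : (⟨f, hvf⟩ : v.integer) = 0 := Subtype.ext h3
    rw [h2, map_zero]; rfl
  refine ⟨f, hvf, hf0, hsub0 f₀, ?_, ?_⟩
  · intro z hz hez
    let ζ : Bb hρ (ρ t) := ⟨ρ ⟨z, hz⟩, rho_mem_Bb hρ t hC z hz⟩
    have hζ : ζ ∈ m := (hmem_m ζ).2 ((heb₂ z hz ζ rfl).2 (by rw [hez]; exact hv0))
    obtain ⟨pb, zb, hpb, heq⟩ := hloc ζ hζ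
    obtain ⟨p, hp, hρp⟩ := exists_lift_Bb hρ t hL pb
    obtain ⟨z'', hz'', hρz''⟩ := exists_lift_Bb hρ t hL zb
    refine ⟨p, z'', hp, hz'', ?_, ?_⟩
    · refine le_antisymm (pt_le_one hC e₂ h₂ p hp) (not_lt.1 fun hlt => hpb ?_)
      exact (hmem_m pb).2 ((heb₂ p hp pb hρp).2 hlt)
    · have hle : v ((p * z - f * z'' : BBa K (t : F)) : F) ≤ 1 := by
        refine le_trans (Valuation.map_sub _ _ _) (max_le ?_ ?_)
        · change v ((p : F) * (z : F)) ≤ 1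
          rw [map_mul]; exact mul_le_one' hp hz
        · change v ((f : F) * (z'' : F)) ≤ 1
          rw [map_mul]; exact mul_le_one' hvf hz''
      refine (hρ.ker ⟨_, hle⟩).1 ?_
      have h2 : (⟨((p * z - f * z'' : BBa K (t : F)) : F), hle⟩ : v.integer) =
          ⟨p, hp⟩ * ⟨z, hz⟩ - ⟨f, hvf⟩ * ⟨z'', hz''⟩ := Subtype.ext rfl
      rw [h2, map_sub, map_mul, map_mul, hρp, hρf, hρz'', sub_eq_zero]
      exact congrArg Subtype.val heq
  · intro e₁ h₁ he₁f hnear z hz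
    obtain ⟨a, haS, ha⟩ := hnear
    obtain ⟨eb₁, heb₁⟩ := exists_redPt hρ t hC hL e₁ h₁
    set n : Ideal (Bb hρ (ρ t)) := RingHom.ker (eb₁ : Bb hρ (ρ t) →+* k) with hn
    have hmem_n : ∀ x : Bb hρ (ρ t), x ∈ n ↔ eb₁ x = 0 := fun x => by
      rw [hn, RingHom.mem_ker]; rfl
    have hprime : n.IsPrime := RingHom.ker_isPrime _
    have hbn : b ∈ n := by
      refine (hmem_n b).2 ((heb₁ B hvB.le b rfl).2 ?_)
      have h3 : e₁ B = ∏ a' ∈ hSf.toFinset, (e₁ (tB K (t : F)) - a') := by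
        simp only [B]
        rw [map_prod]
        refine Finset.prod_congr rfl fun a' _ => ?_
        rw [map_sub, AlgHom.commutes, Algebra.algebraMap_self_apply]
      rw [h3, map_prod, ← Finset.mul_prod_erase _ _ (hSf.mem_toFinset.2 haS)]
      refine lt_of_le_of_lt (mul_le_of_le_one_right' ?_) ha
      refine Finset.prod_le_one' fun a' ha' => ?_
      refine le_trans (Valuation.map_sub _ _ _) (max_le h₁ ?_)
      exact hS a' (hSf.mem_toFinset.1 (Finset.mem_of_mem_erase ha'))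
    have hφn : φ ∈ n := (hmem_n φ).2 ((heb₁ f hvf φ hρf).2 (by rw [he₁f]; exact hv0))
    have hnm : n = m := huniq n hprime hbn hφn
    let ζ : Bb hρ (ρ t) := ⟨ρ ⟨_, hsubv z hz⟩, rho_mem_Bb hρ t hC _ (hsubv z hz)⟩
    have hζ : ζ ∈ m := (hmem_m ζ).2 ((heb₂ _ (hsubv z hz) ζ rfl).2 (by rw [hsub0]; exact hv0))
    rw [← hnm] at hζ
    have h4 := (heb₁ _ (hsubv z hz) ζ rfl).1 ((hmem_n ζ).1 hζ)
    rwa [map_sub, AlgHom.commutes, Algebra.algebraMap_self_apply] at h4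

end Fermat.Agent.S19.R
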