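import Fermat.Agent.S19.R.Pt
import Fermat.Agent.GAL.KLC.IsIntOrd
import Fermat.Agent.GAL.FF.Approx
import Fermat.Agent.GAL.FF.ZeroDeg

/-!
# S19 / R / Sep : the chart ring separates points and tangent vectors
`exists_BBa_ord`: let `W₀ := insert y W`, `T := {val r t | r ∈ W₀}` (finite set of constants), `W₁ :=` the (finite:
`FF.finite_zeros'` applied to `t - c`, or `FF.finite_support_ord`) set of all places `P` with `0 < P.ord (t - algebraMap c)` for some
`c ∈ T`; `W₀ ⊆ W₁` (`S27.val_spec`; `t - c ≠ 0` by transcendence).  `FF.exists_ord_eq W₁ a` with `a y = 1`, `a = 0` elsewhere gives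
`π ≠ 0`.  `Z := {P | P.ord π < 0 ∧ 0 ≤ P.ord t}` is finite (`FF.finite_support_ord`), disjoint from `W₁`, so
`val P t ∉ T` for `P ∈ Z`.  `g := ∏ P ∈ Z, (t - algebraMap (val P t)) ^ (-(P.ord π)).toNat`, `z := π * g`.
`IsInt K t z` by `KLC.isInt_iff_forall_ord ht`: at a place `P` of the chart, `g` is regular and, if `P ∈ Z`, `P.ord g ≥ -P.ord π`.
For `r ∈ W₀`: every factor `t - val P t` has `r.ord = 0` (its value at `r` is `val r t - val P t ≠ 0`: `S27.val_ne_zero_iff`), so
`r.ord z = r.ord π`.   `evB_injective`: if `P ≠ P'` take `z` with `P.ord z = 1`, `P'.ord z = 0` (`W = {P'}`): `val P z = 0 ≠ val P' z`.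
-/

set_option autoImplicit false

open AlgebraicCurve Polynomial

noncomputable section

namespace Fermat.Agent.S19.R

open Fermat.Agent.GAL.KL Fermat.Agent.GAL.KLC Fermat.Agent.GAL.KLB Fermat.Agent.GAL
open Fermat.Agent.S24.FF Fermat.Agent.S27

variable {K F k Γ₀ : Type*} [Field K] [Field F] [Algebra K F] [Field k]
  [LinearOrderedCommGroupWithZero Γ₀] {v : Valuation F Γ₀} {ρ : v.integer →+* LaurentSeries k}

variable [IsAlgClosed K] [CharZero K] [IsFF1 K F]

omit [IsAlgClosed K] [CharZero K] [IsFF1 K F] in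
private theorem sep_sub_ne_zero {t : F} (ht : Transcendental K t) (c : K) :
    t - algebraMap K F c ≠ 0 := by
  intro h
  rw [sub_eq_zero] at h
  exact ht (h ▸ isAlgebraic_algebraMap c)

omit [CharZero K] in
private theorem sep_ord_sub_pos {t : F} (ht : Transcendental K t) (P : Place K F)
    (hP : 0 ≤ P.ord t) : 0 < P.ord (t - algebraMap K F (val P t)) := by
  rcases val_spec' P hP with h | h
  · exact absurd h (sep_sub_ne_zero ht _)
  · exact h

/-- the chart ring separates points and tangent vectors. -/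
theorem exists_BBa_ord {t : F} (ht : Transcendental K t) (y : Place K F) (hy : 0 ≤ y.ord t)
    (W : Finset (Place K F)) (hW : y ∉ W) (hWt : ∀ r ∈ W, 0 ≤ r.ord t) :
    ∃ z : BBa K t, y.ord (z : F) = 1 ∧ ∀ r ∈ W, r.ord (z : F) = 0 := by
  classical
  set W₀ : Finset (Place K F) := insert y W with hW₀
  have hW₀t : ∀ r ∈ W₀, 0 ≤ r.ord t := by
    intro r hr
    rcases Finset.mem_insert.1 hr with rfl | hr
    · exact hy
    · exact hWt r hr
  set T : Finset K := W₀.image (fun r => val r t) with hT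
  have hfin₁ : {P : Place K F | ∃ c ∈ T, 0 < P.ord (t - algebraMap K F c)}.Finite := by
    have : {P : Place K F | ∃ c ∈ T, 0 < P.ord (t - algebraMap K F c)}
        ⊆ ⋃ c ∈ T, {P : Place K F | P.ord (t - algebraMap K F c) ≠ 0} := by
      rintro P ⟨c, hc, hP⟩
      simp only [Set.mem_iUnion]
      exact ⟨c, hc, hP.ne'⟩
    exact (Set.Finite.biUnion T.finite_toSet fun c _ => FF.finite_support_ord _).subset this
  set W₁ : Finset (Place K F) := hfin₁.toFinset with hW₁
  have hmem₁ : ∀ P : Place K F, P ∈ W₁ ↔ ∃ c ∈ T, 0 < P.ord (t - algebraMap K F c) := by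
    intro P
    rw [hW₁, Set.Finite.mem_toFinset]
    rfl
  have hsub : ∀ r ∈ W₀, r ∈ W₁ := by
    intro r hr
    rw [hmem₁]
    exact ⟨val r t, Finset.mem_image_of_mem _ hr, sep_ord_sub_pos ht r (hW₀t r hr)⟩
  obtain ⟨π, hπ0, hπ⟩ := FF.exists_ord_eq W₁ (fun P => if P = y then 1 else 0)
  have hfinZ : {P : Place K F | P.ord π < 0 ∧ 0 ≤ P.ord t}.Finite :=
    (FF.finite_support_ord π).subset fun P hP => hP.1.ne
  set Z : Finset (Place K F) := hfinZ.toFinset with hZ
  have hmemZ : ∀ P : Place K F, P ∈ Z ↔ P.ord π < 0 ∧ 0 ≤ P.ord t := by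
    intro P
    rw [hZ, Set.Finite.mem_toFinset]
    rfl
  have hZT : ∀ P ∈ Z, val P t ∉ T := by
    intro P hP hmem
    have hP' := (hmemZ P).1 hP
    have h1 : P ∈ W₁ := (hmem₁ P).2 ⟨val P t, hmem, sep_ord_sub_pos ht P hP'.2⟩
    have h2 := hπ P h1
    have h3 : (0 : ℤ) ≤ if P = y then 1 else 0 := by split_ifs <;> simp
    omega
  set fac : Place K F → F := fun P => (t - algebraMap K F (val P t)) ^ (-(P.ord π)).toNat with hfac
  set g : F := ∏ P ∈ Z, fac P with hg
  have hfac0 : ∀ P, fac P ≠ 0 := fun P => pow_ne_zero _ (sep_sub_ne_zero ht _)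
  have hg0 : g ≠ 0 := Finset.prod_ne_zero_iff.2 fun P _ => hfac0 P
  have hfacnn : ∀ (Q P : Place K F), 0 ≤ Q.ord t → 0 ≤ Q.ord (fac P) := fun Q P hQ =>
    ord_pow_nonneg Q (ord_sub_nonneg Q hQ (ord_algebraMap_nonneg Q _)) _
  have hgnn : ∀ Q : Place K F, 0 ≤ Q.ord t → 0 ≤ Q.ord g := fun Q hQ =>
    ord_prod_nonneg Q _ _ fun P _ => hfacnn Q P hQ
  have hint : IsInt K t (π * g) := by
    rw [isInt_iff_forall_ord ht]
    intro P hP
    rw [P.ord_mul hπ0 hg0]
    rcases le_or_gt 0 (P.ord π) with h | h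
    · have := hgnn P hP
      omega
    · have hPZ : P ∈ Z := (hmemZ P).2 ⟨h, hP⟩
      have hsplit : g = fac P * ∏ Q ∈ Z.erase P, fac Q := (Finset.mul_prod_erase Z fac hPZ).symm
      have hrest0 : ∏ Q ∈ Z.erase P, fac Q ≠ 0 := Finset.prod_ne_zero_iff.2 fun Q _ => hfac0 Q
      have hrest : 0 ≤ P.ord (∏ Q ∈ Z.erase P, fac Q) :=
        ord_prod_nonneg P _ _ fun Q _ => hfacnn P Q hP
      have h1 : P.ord (fac P) = ((-(P.ord π)).toNat : ℤ) * P.ord (t - algebraMap K F (val P t)) :=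
        ord_pow P _ _
      have h2 := sep_ord_sub_pos ht P hP
      have h3 : ((-(P.ord π)).toNat : ℤ) = -(P.ord π) := Int.toNat_of_nonneg (by omega)
      rw [hsplit, P.ord_mul (hfac0 P) hrest0, h1, h3]
      nlinarith
  have hgW₀ : ∀ r ∈ W₀, r.ord g = 0 := by
    intro r hr
    have hrt := hW₀t r hr
    rw [← val_ne_zero_iff r hg0 (hgnn r hrt), hg, val_prod r _ _ fun P _ => hfacnn r P hrt]
    refine Finset.prod_ne_zero_iff.2 fun P hP => ?_
    rw [hfac]
    simp only
    rw [val_pow r (ord_sub_nonneg r hrt (ord_algebraMap_nonneg r _)),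
      val_sub r hrt (ord_algebraMap_nonneg r _), val_algebraMap]
    refine pow_ne_zero _ (sub_ne_zero.2 fun h => hZT P hP ?_)
    rw [← h]
    exact Finset.mem_image_of_mem _ hr
  refine ⟨⟨π * g, hint⟩, ?_, ?_⟩
  · show y.ord (π * g) = 1
    have hy0 : y ∈ W₀ := Finset.mem_insert_self y W
    rw [y.ord_mul hπ0 hg0, hgW₀ y hy0, hπ y (hsub y hy0), if_pos rfl, add_zero]
  · intro r hr
    show r.ord (π * g) = 0
    have hr0 : r ∈ W₀ := Finset.mem_insert_of_mem hr
    have hne : r ≠ y := fun h => hW (h ▸ hr)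
    rw [r.ord_mul hπ0 hg0, hgW₀ r hr0, hπ r (hsub r hr0), if_neg hne, add_zero]

theorem evB_injective {t : F} (ht : Transcendental K t) {P P' : Place K F} (hP : 0 ≤ P.ord t)
    (hP' : 0 ≤ P'.ord t) (h : evB P hP = evB P' hP') : P = P' := by
  classical
  by_contra hne
  obtain ⟨z, hz1, hz2⟩ := exists_BBa_ord ht P hP {P'} (by simpa using hne)
    (by intro r hr; rw [Finset.mem_singleton.1 hr]; exact hP')
  have hz2' := hz2 P' (Finset.mem_singleton_self P')
  have hz0 : (z : F) ≠ 0 := ne_zero_of_ord_ne_zero P (by rw [hz1]; exact one_ne_zero)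
  have h1 : evB P hP z = 0 := by
    rw [evB_apply]
    exact val_eq_zero_of_ord_pos P (by rw [hz1]; exact one_pos)
  have h2 : evB P' hP' z ≠ 0 := by
    rw [evB_apply]
    exact (val_ne_zero_iff P' hz0 hz2'.ge).2 hz2'
  rw [h] at h1
  exact h2 h1

end Fermat.Agent.S19.R
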