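import Fermat.Agent.S19.R.DerBound

/-!
# S19 / R / Theta : the contraction lemma
Black boxes: `exists_der_bound`, `pt_le_one`.  Take `g` from `exists_der_bound`.  CLAIM `δ g = 0`.  Put
`z := g - algebraMap (e₂ g)` (`v z ≤ 1` because `vK (e₂ g) ≤ 1`; `e₂ z = 0`; `δ z = δ g` since `δ` kills constants:
`hδ 1 1` gives `δ 1 = 0`).  `hloc z` gives `p, z''`, `η := p z - f z''`, `v η < 1`.
`δ η = e₁ p δ z + δ p e₂ z - (e₁ f δ z'' + δ f e₂ z'') = e₁ p * δ g`, and `vK (e₁ p) = 1` (`vK (e₂ p) = 1`,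
`vK (e₁ p - e₂ p) < 1`: `Valuation.map_add_eq_of_lt_left/right`).  So `vK (δ g) = vK (δ η)`.
If `η = 0`: `δ g = 0`.  Else `hρ.val η` gives `a : K`, `v η = v (algebraMap a) < 1`, `ε := a⁻¹ • η` has `v ε = 1`, so
`vK (δ η) = vK a * vK (δ ε) ≤ vK a * vK (δ g)`, which is `< vK (δ g)` unless `δ g = 0`.
Hence `δ = 0` on `{v ≤ 1}`, and on all of `BBa K t` by scaling (`hρ.val`).
-/

set_option autoImplicit false

open AlgebraicCurve Polynomial

noncomputable section

namespace Fermat.Agent.S19.R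

open Fermat.Agent.GAL.KL Fermat.Agent.GAL.KLC Fermat.Agent.GAL.KLB Fermat.Agent.GAL
open Fermat.Agent.S24.FF Fermat.Agent.S27

variable {K F k Γ₀ : Type*} [Field K] [Field F] [Algebra K F] [Field k]
  [LinearOrderedCommGroupWithZero Γ₀] {v : Valuation F Γ₀} {ρ : v.integer →+* LaurentSeries k}

variable [IsAlgClosed K] [CharZero K]

omit [IsAlgClosed K] [CharZero K] in
theorem theta_scale (hρ : IsRed K v ρ) {t : F} (z : BBa K t) (hz : z ≠ 0) :
    ∃ a : K, a ≠ 0 ∧ vK v a = v (z : F) ∧ v ((a⁻¹ • z : BBa K t) : F) ≤ 1 := by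
  have hz0 : (z : F) ≠ 0 := fun h => hz (Subtype.ext h)
  obtain ⟨a, ha⟩ := hρ.val (z : F) hz0
  have hvz : v (z : F) ≠ 0 := (Valuation.ne_zero_iff v).mpr hz0
  have ha0 : a ≠ 0 := by
    rintro rfl
    rw [map_zero, map_zero] at ha
    exact hvz ha
  refine ⟨a, ha0, ha.symm, ?_⟩
  have : ((a⁻¹ • z : BBa K t) : F) = algebraMap K F a⁻¹ * (z : F) := by
    rw [← Algebra.smul_def]; rfl
  rw [this, map_mul, map_inv₀, map_inv₀, ha]
  exact le_of_eq (inv_mul_cancel₀ (ha ▸ hvz))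

/-- **the contraction lemma.**  `e₁, e₂` two points of the chart with the same reduction, `δ` an
`(e₁, e₂)`-derivation, `f` a local generator of the maximal ideal of the reduction of `e₂` (`hloc`) with
`e₁ f = 0`, `δ f = 0`.  Then `δ = 0`. -/
theorem theta (hρ : IsRed K v ρ) {t : F} (hC : Chart K v t) (e₁ e₂ : BBa K t →ₐ[K] K)
    (δ : BBa K t →ₗ[K] K) (hδ : ∀ z z', δ (z * z') = e₁ z * δ z' + δ z * e₂ z')
    (h₁ : vK v (e₁ (tB K t)) ≤ 1) (h₂ : vK v (e₂ (tB K t)) ≤ 1)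
    (hcong : ∀ z : BBa K t, v (z : F) ≤ 1 → vK v (e₁ z - e₂ z) < 1)
    (f : BBa K t) (hf1 : e₁ f = 0) (hfδ : δ f = 0)
    (hloc : ∀ z : BBa K t, v (z : F) ≤ 1 → e₂ z = 0 → ∃ p z'' : BBa K t, v (p : F) ≤ 1 ∧
      v (z'' : F) ≤ 1 ∧ vK v (e₂ p) = 1 ∧ v ((p * z - f * z'' : BBa K t) : F) < 1) :
    δ = 0 := by
  obtain ⟨g, hg, hbound⟩ := exists_der_bound hC e₁ e₂ δ hδ h₁ h₂
  have hδ1 := derBound_one e₁ e₂ δ hδ
  have hconst : ∀ a : K, δ (algebraMap K (BBa K t) a) = 0 := by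
    intro a
    rw [Algebra.algebraMap_eq_smul_one, map_smul, hδ1, smul_zero]
  have hg0 : δ g = 0 := by
    by_contra hne
    have hθ : vK v (δ g) ≠ 0 := (Valuation.ne_zero_iff _).mpr hne
    have hc : vK v (e₂ g) ≤ 1 := pt_le_one hC e₂ h₂ g hg
    set z : BBa K t := g - algebraMap K (BBa K t) (e₂ g) with hz
    have hvz : v (z : F) ≤ 1 := by
      have : (z : F) = (g : F) - algebraMap K F (e₂ g) := rfl
      rw [this]
      exact (Valuation.map_sub _ _ _).trans (max_le hg hc)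
    have he2z : e₂ z = 0 := by rw [hz, map_sub, e₂.commutes]; exact sub_self _
    have hδz : δ z = δ g := by rw [hz, map_sub, hconst, sub_zero]
    obtain ⟨p, z'', hp, -, hep, hη⟩ := hloc z hvz he2z
    set η : BBa K t := p * z - f * z'' with hηdef
    have hδη : δ η = e₁ p * δ g := by
      rw [hηdef, map_sub, hδ, hδ, he2z, hf1, hfδ, hδz]
      ring
    have he1p : vK v (e₁ p) = 1 := by
      have h3 : e₁ p = (e₁ p - e₂ p) + e₂ p := by ring
      rw [h3, Valuation.map_add_eq_of_lt_right, hep]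
      rw [hep]
      exact hcong p hp
    have hval : vK v (δ η) = vK v (δ g) := by rw [hδη, map_mul, he1p, one_mul]
    by_cases hη0 : η = 0
    · rw [hη0, map_zero, map_zero] at hval
      exact hθ hval.symm
    · obtain ⟨a, ha0, hva, hε⟩ := theta_scale hρ η hη0
      have h4 : δ η = a * δ (a⁻¹ • η) := by
        rw [map_smul, smul_eq_mul, ← mul_assoc, mul_inv_cancel₀ ha0, one_mul]
      have h5 : vK v (δ η) < vK v (δ g) := by
        rw [h4, map_mul]
        calc vK v a * vK v (δ (a⁻¹ • η)) ≤ vK v a * vK v (δ g) := by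
              gcongr
              exact hbound _ hε
          _ < 1 * vK v (δ g) := by
              apply mul_lt_mul_of_pos_right
              · rw [hva]; exact hη
              · exact zero_lt_iff.mpr hθ
          _ = vK v (δ g) := one_mul _
      exact absurd hval (ne_of_lt h5)
  ext z
  rw [LinearMap.zero_apply]
  by_cases hz0 : z = 0
  · rw [hz0, map_zero]
  · obtain ⟨a, ha0, -, hε⟩ := theta_scale hρ z hz0
    have h4 : δ z = a * δ (a⁻¹ • z) := by
      rw [map_smul, smul_eq_mul, ← mul_assoc, mul_inv_cancel₀ ha0, one_mul]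
    have h5 := hbound _ hε
    rw [hg0, map_zero] at h5
    have h6 : δ (a⁻¹ • z) = 0 := (Valuation.zero_iff _).mp (le_antisymm h5 zero_le)
    rw [h4, h6, mul_zero]

end Fermat.Agent.S19.R
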