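import Fermat.Agent.S19.R.LocGen
import Fermat.Agent.S19.R.Theta
import Fermat.Agent.S19.R.Sep
import Fermat.Agent.S19.R.Der

/-!
# S19 / R / Move1 : the moving lemma for one place
Black boxes: `exists_loc_gen`, `theta`, `exists_BBa_ord`, `evB_injective`, `exists_der`.  `e₂ := evB y hy.1`; `vK (val y t) ≤ 1` because it is
congruent to some `a ∈ S`.  `f` from `exists_loc_gen hρ t hC hL e₂ _ S hSf hS`.  `Transcendental K t` from `hC.gauss.inj`.
(1) `y.ord f = 1`: `f ≠ 0`, `val y f = 0` ⇒ `0 < ord` (`S27.val_eq_zero_iff`, `BBa_le`).  If `2 ≤ ord`: `δ` from `exists_der y`; `theta` with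
`e₁ = e₂` (`hcong`: `vK 0 < 1`) gives `δ = 0`, contradicting `exists_BBa_ord ht y hy.1 ∅` (`z` with `ord = 1`, `δ z ≠ 0`).
(2) `r ≠ y`, `r.ord f ≠ 0`, `NearSet r`: `e₁ := evB r _`; `0 ≤ r.ord f` (`BBa_le`) so `0 < r.ord f`, `e₁ f = 0`; the last clause of
`exists_loc_gen` gives `hcong`; `theta` with `δ := e₁.toLinearMap - e₂.toLinearMap` (Leibniz by `ring`; `δ f = 0`) gives `e₁ = e₂`;
`evB_injective` ⇒ `r = y`.
-/

set_option autoImplicit false

open AlgebraicCurve Polynomial

noncomputable section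

namespace Fermat.Agent.S19.R

open Fermat.Agent.GAL.KL Fermat.Agent.GAL.KLC Fermat.Agent.GAL.KLB Fermat.Agent.GAL
open Fermat.Agent.S24.FF Fermat.Agent.S27

variable {K F k Γ₀ : Type*} [Field K] [Field F] [Algebra K F] [Field k]
  [LinearOrderedCommGroupWithZero Γ₀] {v : Valuation F Γ₀} {ρ : v.integer →+* LaurentSeries k}

variable [IsAlgClosed K] [CharZero K] [IsFF1 K F]

theorem move_one (hρ : IsRed K v ρ) (t : v.integer) (hC : Chart K v (t : F)) (hL : Lift K ρ t)
    (S : Set K) (hSf : S.Finite) (hS : ∀ a ∈ S, vK v a ≤ 1) (y : Place K F)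
    (hy : NearSet v (t : F) S y) :
    ∃ f : F, f ≠ 0 ∧ y.ord f = 1 ∧
      ∀ r : Place K F, r ≠ y → r.ord f ≠ 0 → ¬ NearSet v (t : F) S r := by
  have ht : Transcendental K (t : F) := by
    rw [transcendental_iff]
    exact fun p hp => hC.gauss.inj p hp
  -- values congruent to an element of `S` are integral
  have hint : ∀ r : Place K F, NearSet v (t : F) S r → vK v (val r (t : F)) ≤ 1 := by
    rintro r ⟨-, a, ha, har⟩
    have h1 : val r (t : F) = (val r (t : F) - a) + a := by ring
    rw [h1]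
    exact (Valuation.map_add _ _ _).trans (max_le har.le (hS a ha))
  obtain ⟨f, -, hf0, hf2, hloc, hnear⟩ :=
    exists_loc_gen hρ t hC hL (evB y hy.1) (hint y hy) S hSf hS
  have hfF : (f : F) ≠ 0 := fun h => hf0 (Subtype.ext h)
  refine ⟨f, hfF, ?_, ?_⟩
  · -- `ord_y f = 1`
    have hpos : 0 < y.ord (f : F) :=
      ((val_eq_zero_iff y (BBa_le y hy.1 f)).1 hf2).resolve_left hfF
    by_contra hne
    have h2 : 2 ≤ y.ord (f : F) := by omega
    obtain ⟨δ, hδ, hδ2, hδ1⟩ := exists_der y hy.1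
    have hzero : δ = 0 := theta hρ hC (evB y hy.1) (evB y hy.1) δ hδ (hint y hy) (hint y hy)
      (fun z _ => by rw [sub_self, map_zero]; exact zero_lt_one) f hf2 (hδ2 f h2) hloc
    obtain ⟨z, hz, -⟩ := exists_BBa_ord ht y hy.1 ∅ (by simp) (by simp)
    exact hδ1 z hz (by rw [hzero]; rfl)
  · intro r hry hrf hr
    apply hry
    have hpos : 0 < r.ord (f : F) := lt_of_le_of_ne (BBa_le r hr.1 f) (Ne.symm hrf)
    have hf1 : evB r hr.1 f = 0 := val_eq_zero_of_ord_pos r hpos
    have hcong := hnear (evB r hr.1) (hint r hr) hf1 hr.2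
    have hzero : (evB r hr.1).toLinearMap - (evB y hy.1).toLinearMap = 0 :=
      theta hρ hC (evB r hr.1) (evB y hy.1) _
        (fun z z' => by
          simp only [LinearMap.sub_apply, AlgHom.toLinearMap_apply, map_mul]
          ring)
        (hint r hr) (hint y hy) hcong f hf1
        (by
          simp only [LinearMap.sub_apply, AlgHom.toLinearMap_apply]
          rw [hf1, hf2, sub_zero]) hloc
    have heq : evB r hr.1 = evB y hy.1 := by
      ext z
      have := LinearMap.congr_fun hzero z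
      simp only [LinearMap.sub_apply, AlgHom.toLinearMap_apply, LinearMap.zero_apply] at this
      exact sub_eq_zero.1 this
    exact evB_injective ht hr.1 hy.1 heq

end Fermat.Agent.S19.R
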